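import Fermat.Agent.ResidualThree.CubicDescent.Systems
import Fermat.Agent.ResidualThree.Kernel.L2

/-!
# The good algebra

Test functions supported in the level at the places of `Bad`; they are inversion invariant, so
they commute.
-/

noncomputable section

open IsDedekindDomain NumberField MeasureTheory
open scoped WithZero ComplexConjugate

namespace Fermat.Agent.ResidualThree

variable {F : Type} [Field F] [NumberField F] {U : Level F}

/-- The finite part is supported in the level at the places of `Bad`. -/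
def TestMonomial.IsGood (Bad : Finset (FPlace F)) (m : TestMonomial U) : Prop :=
  ∀ x, m.fin x ≠ 0 → ∀ v ∈ Bad, (x : ∀ v, GLv v) v ∈ U.J v

/-- All monomials are good. -/
def IsGoodFun (Bad : Finset (FPlace F)) (f : TestFun U) : Prop := ∀ m ∈ f, m.IsGood Bad

theorem exists_inv_eq_mul_mul (v : FPlace F) (g : GLv v) :
    ∃ k₁ ∈ maxSubgroup v, ∃ k₂ ∈ maxSubgroup v, g⁻¹ = k₁ * g * k₂ := by
  obtain ⟨p, hp⟩ := exists_unif_units v
  have hd : Tree.vdist (QuotientGroup.mk 1 : Tree.Vert (valv v)) (QuotientGroup.mk g) =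
      Tree.vdist (QuotientGroup.mk 1 : Tree.Vert (valv v)) (QuotientGroup.mk g⁻¹) := by
    rw [Tree.vdist_mk, Tree.vdist_mk, inv_one, one_mul, one_mul, Tree.cartan_inv]
  obtain ⟨k, hk1, hk2⟩ := Tree.exists_smul_pair hp hd
  rw [MulAction.Quotient.smul_mk, smul_eq_mul, mul_one, QuotientGroup.eq, mul_one,
    inv_mem_iff] at hk1
  rw [MulAction.Quotient.smul_mk, smul_eq_mul, QuotientGroup.eq] at hk2
  exact ⟨k, hk1, (k * g)⁻¹ * g⁻¹, hk2, by group⟩

variable {Bad : Finset (FPlace F)} (hU : ∀ v ∉ Bad, U.J v = maxSubgroup v)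
include hU

theorem TestMonomial.IsGood.exists_inv {m : TestMonomial U} (hm : m.IsGood Bad) {x : Gf F}
    (hx : m.fin x ≠ 0) : m.fin x⁻¹ = m.fin x := by
  classical
  choose k₁ hk₁ k₂ hk₂ he using fun v : FPlace F => exists_inv_eq_mul_mul v ((x : ∀ v, GLv v) v)
  let j₁ : ∀ v, GLv v := fun v => if v ∈ Bad then ((x : ∀ v, GLv v) v)⁻¹ else k₁ v
  let j₂ : ∀ v, GLv v := fun v => if v ∈ Bad then ((x : ∀ v, GLv v) v)⁻¹ else k₂ v
  have h₁ : ∀ v, j₁ v ∈ U.J v := fun v => by
    by_cases hv : v ∈ Bad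
    · simp only [j₁, if_pos hv]; exact inv_mem (hm x hx v hv)
    · simp only [j₁, if_neg hv, hU v hv]; exact hk₁ v
  have h₂ : ∀ v, j₂ v ∈ U.J v := fun v => by
    by_cases hv : v ∈ Bad
    · simp only [j₂, if_pos hv]; exact inv_mem (hm x hx v hv)
    · simp only [j₂, if_neg hv, hU v hv]; exact hk₂ v
  let J₁ : Gf F := ⟨j₁, show ∀ᶠ v in Filter.cofinite, j₁ v ∈ maxSubgroup v from
    Filter.Eventually.of_forall fun v => U.le_max v (h₁ v)⟩
  let J₂ : Gf F := ⟨j₂, show ∀ᶠ v in Filter.cofinite, j₂ v ∈ maxSubgroup v from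
    Filter.Eventually.of_forall fun v => U.le_max v (h₂ v)⟩
  have e : x⁻¹ = J₁ * x * J₂ := Subtype.ext (funext fun v => by
    show ((x : ∀ v, GLv v) v)⁻¹ = j₁ v * (x : ∀ v, GLv v) v * j₂ v
    by_cases hv : v ∈ Bad
    · simp only [j₁, j₂, if_pos hv]; group
    · simp only [j₁, j₂, if_neg hv]; exact he v)
  rw [e, m.biinvariant J₁ J₂ x h₁ h₂]

theorem TestMonomial.IsGood.fin_inv {m : TestMonomial U} (hm : m.IsGood Bad) (x : Gf F) :
    m.fin x⁻¹ = m.fin x := by
  by_cases hx : m.fin x = 0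
  · by_contra h
    rw [hx] at h
    have := hm.exists_inv hU h
    rw [inv_inv, hx] at this
    exact h this.symm
  · exact hm.exists_inv hU hx

omit hU in
theorem TestMonomial.IsGood.conv {a b : TestMonomial U} (ha : a.IsGood Bad) (hb : b.IsGood Bad) :
    (a.conv b).IsGood Bad := by
  intro x hx v hv
  obtain ⟨y, hy⟩ : ∃ y : Ωf U, a.fin y.out * b.fin (y.out⁻¹ * x) ≠ 0 := by
    by_contra h
    push Not at h
    refine hx ?_
    show TestMonomial.convFin a b x = 0
    rw [TestMonomial.convFin, tsum_congr h, tsum_zero]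
  have h1 := ha _ (left_ne_zero_of_mul hy) v hv
  have h2 := hb _ (right_ne_zero_of_mul hy) v hv
  have e : (x : ∀ v, GLv v) v = (y.out : ∀ v, GLv v) v * ((y.out⁻¹ * x : Gf F) : ∀ v, GLv v) v := by
    show _ = _ * (((y.out : ∀ v, GLv v) v)⁻¹ * (x : ∀ v, GLv v) v)
    rw [mul_inv_cancel_left]
  rw [e]
  exact mul_mem h1 h2

omit hU in
theorem TestMonomial.IsGood.adj {m : TestMonomial U} (hm : m.IsGood Bad) : m.adj.IsGood Bad := by
  intro x hx v hv
  have : m.fin x⁻¹ ≠ 0 := fun h => hx (by show conj (m.fin x⁻¹) = 0; rw [h, map_zero])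
  exact inv_mem_iff.mp (hm _ this v hv)

/-- Good monomials commute. -/
theorem TestMonomial.IsGood.convFin_comm {a b : TestMonomial U} (ha : a.IsGood Bad)
    (hb : b.IsGood Bad) (x : Gf F) :
    TestMonomial.convFin a b x = TestMonomial.convFin b a x := by
  have h := (ha.conv hb).fin_inv hU x
  show TestMonomial.convFin a b x = _
  rw [← show TestMonomial.convFin a b x⁻¹ = TestMonomial.convFin a b x from h,
    ← mul_one x⁻¹, ← TestMonomial.convFin_eq, TestMonomial.convFin]
  refine tsum_congr fun y => ?_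
  rw [← ha.fin_inv hU (x⁻¹ * y.out), _root_.mul_inv_rev, inv_inv, mul_one, hb.fin_inv hU, mul_comm]

theorem IsGoodFun.autKernel_comm {f g : TestFun U} (hf : IsGoodFun Bad f) (hg : IsGoodFun Bad g)
    (s t : Spc U) : autKernel (convFun f g) s t = autKernel (convFun g f) s t :=
  autKernel_convFun_comm f g (fun a ha b hb => (hf a ha).convFin_comm hU (hg b hb)) s t

omit hU

theorem IsGoodFun.conv {f g : TestFun U} (hf : IsGoodFun Bad f) (hg : IsGoodFun Bad g) :
    IsGoodFun Bad (convFun f g) := by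
  intro m hm
  simp only [convFun, List.mem_flatMap, List.mem_map] at hm
  obtain ⟨a, ha, b, hb, rfl⟩ := hm
  exact (hf a ha).conv (hg b hb)

theorem IsGoodFun.adj {f : TestFun U} (hf : IsGoodFun Bad f) : IsGoodFun Bad (adjFun f) := by
  intro m hm
  simp only [adjFun, List.mem_map] at hm
  obtain ⟨a, ha, rfl⟩ := hm
  exact (hf a ha).adj

theorem GoodDatum.mono_isGood (d : GoodDatum F) (hU : ∀ v ∉ Bad, U.J v = maxSubgroup v) :
    (d.mono hU).IsGood Bad := by
  classical
  intro x hx v hv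
  have h := (d.isLocalFamily hU).globalFun_ne_zero (x := x) hx v
  simp only [GoodDatum.fin, if_pos hv] at h
  by_contra hne
  exact h (if_neg hne)

theorem isGoodFun_map_mono (E : List (GoodDatum F)) (hU : ∀ v ∉ Bad, U.J v = maxSubgroup v) :
    IsGoodFun Bad (E.map fun d => d.mono hU) := by
  intro m hm
  obtain ⟨d, -, rfl⟩ := List.mem_map.mp hm
  exact d.mono_isGood hU

theorem isGoodFun_singleton {m : TestMonomial U} (hm : m.IsGood Bad) : IsGoodFun Bad [m] := by
  intro a ha
  rw [List.mem_singleton.mp ha]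
  exact hm

end Fermat.Agent.ResidualThree
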