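import Fermat.Agent.ResidualThree.CubicDescent.Spectral.ArchPi
import Fermat.Agent.ResidualThree.CubicDescent.Systems

/-!
# Radial kernels are determined by their horospherical transforms

The transform has derivative `-2π sinh s · k (cosh s)`; so `sphKernel` is an algebra map on
distances, and the mass of a kernel is read off its transform.
-/

noncomputable section

open MeasureTheory Filter Topology Set
open scoped ContDiff ComplexConjugate

namespace Fermat.Agent.ResidualThree

namespace H3

variable {k k₁ k₂ : ℝ → ℂ}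

/-- The derivative of the horospherical transform. -/
theorem IsKernel.hasDerivAt_abel (hk : IsKernel k) (s : ℝ) :
    HasDerivAt (abelTransform k) (-(2 * Real.pi * Real.sinh s * k (Real.cosh s))) s := by
  have hi : Integrable k := hk.cont.integrable_of_hasCompactSupport hk.compact
  have e : abelTransform k = fun r => 2 * (Real.pi : ℂ) *
      ((∫ u in Ioi (1 : ℝ), k u) - ∫ u in (1 : ℝ)..Real.cosh r, k u) := funext fun r => by
    rw [abelTransform, ← intervalIntegral.integral_interval_add_Ioi (a := 1) (b := Real.cosh r)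
      hi.integrableOn hi.integrableOn, add_sub_cancel_left]
  have h1 := (intervalIntegral.integral_hasDerivAt_right (a := 1) (b := Real.cosh s)
    hi.intervalIntegrable (hk.cont.stronglyMeasurableAtFilter _ _) hk.cont.continuousAt).scomp s
    (Real.hasDerivAt_cosh s)
  rw [e]
  refine ((h1.const_sub _).const_mul (2 * (Real.pi : ℂ))).congr_deriv ?_
  rw [Complex.real_smul]
  ring

/-- Kernels with the same transform agree on distances. -/
theorem IsKernel.eqOn_of_abel_eq (h₁ : IsKernel k₁) (h₂ : IsKernel k₂)
    (h : abelTransform k₁ = abelTransform k₂) : EqOn k₁ k₂ (Ici 1) := by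
  intro c (hc : 1 ≤ c)
  have key : ∀ c, 1 < c → k₁ c = k₂ c := by
    intro c hc
    set s := Real.arcosh c
    have hs : Real.sinh s ≠ 0 :=
      (Real.sinh_pos_iff.mpr (Real.arcosh_pos hc)).ne'
    have := (h₁.hasDerivAt_abel s).unique (h ▸ h₂.hasDerivAt_abel s)
    rw [Real.cosh_arcosh hc.le, neg_inj] at this
    refine mul_left_cancel₀ ?_ this
    exact mul_ne_zero (by simp [Real.pi_ne_zero]) (Complex.ofReal_ne_zero.mpr hs)
  rcases hc.eq_or_lt with rfl | hc'
  · exact tendsto_nhds_unique (h₁.cont.continuousAt.tendsto.mono_left nhdsWithin_le_nhds)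
      ((h₂.cont.continuousAt.tendsto.mono_left nhdsWithin_le_nhds).congr'
        (eventually_nhdsWithin_of_forall (s := Ioi 1) fun c hc => (key c hc).symm))
  · exact key c hc'

theorem IsKernel.add (h₁ : IsKernel k₁) (h₂ : IsKernel k₂) : IsKernel fun c => k₁ c + k₂ c :=
  ⟨h₁.cont.add h₂.cont, h₁.compact.add h₂.compact⟩

theorem IsKernel.smul (h : IsKernel k) (a : ℂ) : IsKernel fun c => a * k c :=
  ⟨continuous_const.mul h.cont, h.compact.mul_left⟩

theorem IsKernel.conj (h : IsKernel k) : IsKernel fun c => conj (k c) :=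
  ⟨Complex.continuous_conj.comp h.cont, h.compact.comp_left (map_zero _)⟩

theorem IsKernel.abel_add (h₁ : IsKernel k₁) (h₂ : IsKernel k₂) :
    abelTransform (fun c => k₁ c + k₂ c) = fun s => abelTransform k₁ s + abelTransform k₂ s := by
  funext s
  have i₁ : Integrable k₁ := h₁.cont.integrable_of_hasCompactSupport h₁.compact
  have i₂ : Integrable k₂ := h₂.cont.integrable_of_hasCompactSupport h₂.compact
  simp only [abelTransform]
  rw [integral_add i₁.integrableOn i₂.integrableOn, mul_add]

theorem abel_smul (a : ℂ) (k : ℝ → ℂ) :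
    abelTransform (fun c => a * k c) = fun s => a * abelTransform k s := by
  funext s
  simp only [abelTransform, integral_const_mul]
  ring

theorem abel_conj (k : ℝ → ℂ) :
    abelTransform (fun c => conj (k c)) = fun s => conj (abelTransform k s) := by
  funext s
  simp only [abelTransform, integral_conj, map_mul, Complex.conj_ofReal, Complex.conj_ofNat]

/-- The mass of a kernel through the derivative of its transform. -/
theorem IsKernel.integral_norm_eq (hk : IsKernel k) :
    ∫ q, ‖k (coshDist base q)‖ ∂vol = ∫ s : ℝ, |Real.sinh s| * ‖deriv (abelTransform k) s‖ := by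
  set K : ℝ → ℂ := fun c => ((‖k c‖ : ℝ) : ℂ)
  have hK : IsKernel K :=
    ⟨Complex.continuous_ofReal.comp hk.cont.norm, hk.compact.norm.comp_left Complex.ofReal_zero⟩
  set A := abelTransform K
  set A' : ℝ → ℂ := fun s => -(2 * Real.pi * Real.sinh s * K (Real.cosh s))
  have hA' : Continuous A' := by
    have := hK.cont
    fun_prop
  have hAs : HasCompactSupport A := hK.hasCompactSupport_abel
  have hA's : HasCompactSupport A' := by
    obtain ⟨R, hR1, hR⟩ := hK.exists_radius
    refine HasCompactSupport.intro (isCompact_Icc (a := -Real.arcosh R) (b := Real.arcosh R))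
      fun s hs => ?_
    have hs' : R < Real.cosh s := by
      rw [← Real.cosh_abs s, ← Real.cosh_arcosh hR1]
      refine Real.cosh_lt_cosh.mpr ?_
      rw [abs_abs, abs_of_nonneg (Real.arcosh_nonneg hR1)]
      rw [mem_Icc, ← abs_le] at hs
      exact not_le.mp hs
    simp [A', hR _ hs']
  have hAd : ∀ s, HasDerivAt A (A' s) s := hK.hasDerivAt_abel
  have hsd : ∀ s : ℝ, HasDerivAt (fun s : ℝ => ((Real.sinh s : ℝ) : ℂ))
      ((Real.cosh s : ℝ) : ℂ) s := fun s => (Real.hasDerivAt_sinh s).ofReal_comp
  have hAc : Continuous A := hK.continuous_abel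
  have i1 : Integrable fun s : ℝ => ((Real.sinh s : ℝ) : ℂ) * A' s :=
    ((Complex.continuous_ofReal.comp Real.continuous_sinh).mul hA').integrable_of_hasCompactSupport
      hA's.mul_left
  have i2 : Integrable fun s : ℝ => ((Real.cosh s : ℝ) : ℂ) * A s :=
    ((Complex.continuous_ofReal.comp Real.continuous_cosh).mul hAc).integrable_of_hasCompactSupport
      hAs.mul_left
  have i3 : Integrable fun s : ℝ => ((Real.sinh s : ℝ) : ℂ) * A s :=
    ((Complex.continuous_ofReal.comp Real.continuous_sinh).mul hAc).integrable_of_hasCompactSupport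
      hAs.mul_left
  have hparts := integral_mul_deriv_eq_deriv_mul_of_integrable (fun x _ => hsd x)
    (fun x _ => hAd x) i1 i2 i3
  have hmass : ∫ q, K (coshDist base q) ∂vol = ∫ s : ℝ, ((Real.cosh s : ℝ) : ℂ) * A s := by
    rw [integral_slices (hK.integrable base)]
    simp only [integral_horosphere_base]
    have hsinh : ∫ s : ℝ, ((Real.sinh s : ℝ) : ℂ) * A s = 0 := by
      rw [← integral_mul_sinh_eq_zero (g := A) (abelTransform_even K) 1]
      exact integral_congr_ae (Eventually.of_forall fun s => by
        simp only [one_mul, Complex.ofReal_sinh]; ring)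
    rw [← sub_zero (∫ s : ℝ, ((Real.cosh s : ℝ) : ℂ) * A s), ← hsinh, ← integral_sub i2 i3]
    refine integral_congr_ae (Eventually.of_forall fun s => ?_)
    simp only
    rw [Complex.real_smul, ← mul_assoc, ← sub_mul]
    congr 1
    rw [← Complex.ofReal_mul, ← Complex.ofReal_sub, ← Real.exp_add, Real.cosh_sub_sinh]
    congr 2
    ring
  apply Complex.ofReal_injective
  rw [← integral_complex_ofReal, ← integral_complex_ofReal]
  show ∫ q, K (coshDist base q) ∂vol = _
  rw [hmass, eq_neg_iff_add_eq_zero.mp hparts |> eq_neg_of_add_eq_zero_right, ← integral_neg]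
  refine integral_congr_ae (Eventually.of_forall fun s => ?_)
  simp only [A', K, (hk.hasDerivAt_abel s).deriv, norm_neg, norm_mul, Complex.norm_real,
    Real.norm_eq_abs, Complex.norm_ofNat, abs_of_pos Real.pi_pos]
  have hh := congrArg (fun x : ℝ => (x : ℂ)) (abs_mul_abs_self (Real.sinh s))
  simp only [Complex.ofReal_mul] at hh
  simp only [Complex.ofReal_mul, Complex.ofReal_ofNat]
  linear_combination (-(2 * (Real.pi : ℂ) * (‖k (Real.cosh s)‖ : ℂ))) * hh

/-- Against a bounded function a kernel gives at most its mass. -/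
theorem IsKernel.norm_integral_le (hk : IsKernel k) (p : H3) {f : H3 → ℂ} {C : ℝ}
    (hC : ∀ q, ‖f q‖ ≤ C) :
    ‖∫ q, k (coshDist p q) * f q ∂vol‖ ≤ C * ∫ q, ‖k (coshDist base q)‖ ∂vol := by
  have e : ∫ q, ‖k (coshDist p q)‖ ∂vol = ∫ q, ‖k (coshDist base q)‖ ∂vol := by
    rw [← integral_smul_gl (upTo p) (fun q => ‖k (coshDist p q)‖)]
    refine integral_congr_ae (Eventually.of_forall fun q => ?_)
    simp only
    rw [← coshDist_smul (upTo p) base q, upTo_smul_base]
  rw [← e, ← integral_const_mul]
  refine norm_integral_le_of_norm_le ((hk.integrable p).norm.const_mul C)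
    (Eventually.of_forall fun q => ?_)
  rw [norm_mul, mul_comm]
  exact mul_le_mul_of_nonneg_right (hC q) (norm_nonneg _)

end H3

variable {g h : ℝ → ℂ}

theorem abel_sphKernel (hg : IsSphTest g) : abelTransform (sphKernel g) = g :=
  (sphKernel_spec hg).2.1

theorem isKernel_sphKernel (hg : IsSphTest g) : H3.IsKernel (sphKernel g) := (sphKernel_spec hg).1

theorem sphKernel_eqOn_of_abel {k : ℝ → ℂ} (hk : H3.IsKernel k) (hg : IsSphTest g)
    (e : abelTransform k = g) : EqOn (sphKernel g) k (Ici 1) :=
  (isKernel_sphKernel hg).eqOn_of_abel_eq hk ((abel_sphKernel hg).trans e.symm)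

theorem sphKernel_add (hg : IsSphTest g) (hh : IsSphTest h) :
    EqOn (sphKernel fun s => g s + h s) (fun c => sphKernel g c + sphKernel h c) (Ici 1) :=
  sphKernel_eqOn_of_abel ((isKernel_sphKernel hg).add (isKernel_sphKernel hh)) (hg.add hh)
    (by rw [(isKernel_sphKernel hg).abel_add (isKernel_sphKernel hh), abel_sphKernel hg,
      abel_sphKernel hh])

theorem sphKernel_smul (hg : IsSphTest g) (a : ℂ) :
    EqOn (sphKernel fun s => a * g s) (fun c => a * sphKernel g c) (Ici 1) :=
  sphKernel_eqOn_of_abel ((isKernel_sphKernel hg).smul a) (hg.smul a)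
    (by rw [H3.abel_smul, abel_sphKernel hg])

theorem sphKernel_conj (hg : IsSphTest g) :
    EqOn (sphKernel fun s => conj (g s)) (fun c => conj (sphKernel g c)) (Ici 1) :=
  sphKernel_eqOn_of_abel (isKernel_sphKernel hg).conj hg.conj
    (by rw [H3.abel_conj, abel_sphKernel hg])

/-- `sphKernel` takes convolution to composition. -/
theorem sphKernel_conv (hg : IsSphTest g) (hh : IsSphTest h) :
    EqOn (sphKernel (convR g h)) (H3.compKernel (sphKernel g) (sphKernel h)) (Ici 1) :=
  sphKernel_eqOn_of_abel ((isKernel_sphKernel hg).comp (isKernel_sphKernel hh)) (hg.conv hh)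
    (funext fun s => by
      rw [H3.abelTransform_comp (isKernel_sphKernel hg) (isKernel_sphKernel hh),
        abel_sphKernel hg, abel_sphKernel hh, convR])

/-- A composition with a fixed kernel has mass bounded by the weighted mass of the other factor. -/
theorem exists_mass_conv_le {g₁ : ℝ → ℂ} (hg₁ : IsSphTest g₁) :
    ∃ C : ℝ, ∀ g, IsSphTest g →
      ∫ q, ‖sphKernel (convR g g₁) (H3.coshDist H3.base q)‖ ∂H3.vol ≤
        C * ∫ s, ‖g s‖ * Real.cosh s := by
  refine ⟨2 * ∫ s, ‖deriv g₁ s‖ * Real.cosh s, fun g hg => ?_⟩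
  rw [(isKernel_sphKernel (hg.conv hg₁)).integral_norm_eq, abel_sphKernel (hg.conv hg₁)]
  have hd₁ : Continuous (deriv g₁) := hg₁.smooth.continuous_deriv (by simp)
  have hder : deriv (convR g g₁) = convR g (deriv g₁) := funext fun s => by
    rw [convR_eq_convolution]
    exact (hg₁.compact.hasDerivAt_convolution_right _ hg.continuous.locallyIntegrable
      (hg₁.smooth.of_le (by simp)) s).deriv
  set u : ℝ → ℝ := fun t => ‖g t‖ * Real.cosh t
  set v : ℝ → ℝ := fun t => ‖deriv g₁ t‖ * Real.cosh t
  have huc : Continuous u := hg.continuous.norm.mul Real.continuous_cosh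
  have hvc : Continuous v := hd₁.norm.mul Real.continuous_cosh
  have hus : HasCompactSupport u := hg.compact.norm.mul_right
  have hvs : HasCompactSupport v := hg₁.compact.deriv.norm.mul_right
  have hint : ∫ s, (MeasureTheory.convolution u v (ContinuousLinearMap.mul ℝ ℝ) volume) s =
      (∫ s, u s) * ∫ s, v s :=
    integral_convolution (ContinuousLinearMap.mul ℝ ℝ)
      (huc.integrable_of_hasCompactSupport hus) (hvc.integrable_of_hasCompactSupport hvs)
  refine le_trans (le_of_le_of_eq ?_ (integral_const_mul 2
    (MeasureTheory.convolution u v (ContinuousLinearMap.mul ℝ ℝ) volume)))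
    (le_of_eq (by rw [hint]; ring))
  have hcs : Integrable (MeasureTheory.convolution u v (ContinuousLinearMap.mul ℝ ℝ) volume) :=
    (huc.integrable_of_hasCompactSupport hus).integrable_convolution _
      (hvc.integrable_of_hasCompactSupport hvs)
  refine integral_mono_of_nonneg (Eventually.of_forall fun s => by positivity) (hcs.const_mul 2)
    (Eventually.of_forall fun s => ?_)
  rw [hder]
  simp only [MeasureTheory.convolution, ContinuousLinearMap.mul_apply', convR]
  rw [← integral_const_mul]
  refine le_trans (mul_le_mul_of_nonneg_left (norm_integral_le_integral_norm _) (abs_nonneg _)) ?_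
  rw [← integral_const_mul]
  refine integral_mono_of_nonneg (Eventually.of_forall fun t => by positivity)
    (((huc.mul (hvc.comp (continuous_const.sub continuous_id))).integrable_of_hasCompactSupport
      hus.mul_right).const_mul 2) (Eventually.of_forall fun t => ?_)
  simp only [u, v, norm_mul]
  have h1 : |Real.sinh s| ≤ 2 * (Real.cosh t * Real.cosh (s - t)) := by
    have e1 : |Real.sinh s| ≤ Real.cosh s := abs_le.mpr
      ⟨by linarith [Real.cosh_add_sinh s, Real.exp_pos s],
        by linarith [Real.cosh_sub_sinh s, Real.exp_pos (-s)]⟩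
    refine e1.trans ?_
    have hs : Real.cosh s = Real.cosh t * Real.cosh (s - t) + Real.sinh t * Real.sinh (s - t) := by
      rw [← Real.cosh_add, add_sub_cancel]
    have hm : Real.cosh t * Real.cosh (s - t) - Real.sinh t * Real.sinh (s - t) =
        Real.cosh (t - (s - t)) := (Real.cosh_sub _ _).symm
    linarith [Real.cosh_pos (t - (s - t))]
  calc |Real.sinh s| * (‖g t‖ * ‖deriv g₁ (s - t)‖)
      ≤ 2 * (Real.cosh t * Real.cosh (s - t)) * (‖g t‖ * ‖deriv g₁ (s - t)‖) :=
        mul_le_mul_of_nonneg_right h1 (by positivity)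
    _ = _ := by ring

end Fermat.Agent.ResidualThree
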