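import Fermat.Agent.ResidualThree.Automorphic.Sphere
import Fermat.Agent.ResidualThree.CubicDescent.Spectral.GoodFun
import Fermat.Agent.ResidualThree.CubicDescent.Spectral.KernelAlg

/-!
# The finite part of a datum as a composite of Hecke operators

The right translations by the finite part of a datum are changed one place at a time into
combinations of spheres, so on an eigenfunction they act by the spherical eigenvalues.
-/

noncomputable section

open IsDedekindDomain NumberField MeasureTheory
open scoped WithZero ComplexConjugate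

namespace Fermat.Agent.ResidualThree

variable {F : Type} [Field F] [NumberField F] {U : Level F} {Bad : Finset (FPlace F)}

/-- The datum with unit finite part. -/
def GoodDatum.ofArch (g : InfinitePlace F → ℝ → ℂ) (hg : ∀ w, IsSphTest (g w)) : GoodDatum F where
  loc _ := Finsupp.single 0 1
  unit := Filter.Eventually.of_forall fun _ => rfl
  g := g
  test := hg

open Classical in
/-- The datum with one local function changed. -/
def GoodDatum.setLoc (d : GoodDatum F) (w : FPlace F) (f : ℕ →₀ ℂ) : GoodDatum F where
  loc := Function.update d.loc w f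
  unit := by
    filter_upwards [d.unit, (Set.finite_singleton w).compl_mem_cofinite] with v hv hv'
    rw [Function.update_of_ne (by simpa using hv'), hv]
  g := d.g
  test := d.test

/-- The conjugate datum. -/
def GoodDatum.conjD (d : GoodDatum F) : GoodDatum F where
  loc v := (d.loc v).mapRange (starRingEnd ℂ) (map_zero _)
  unit := d.unit.mono fun v hv => by rw [hv, Finsupp.mapRange_single, map_one]
  g w := fun s => conj (d.g w s)
  test w := (d.test w).conj

theorem TestMonomial.act_congr_kernel {a b : TestMonomial U}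
    (h : ∀ s t, a.kernel s t = b.kernel s t) (φ : Gf F → Hyp F → ℂ) : a.act φ = b.act φ := by
  funext x p
  simp only [TestMonomial.act, h]

variable (hU : ∀ v ∉ Bad, U.J v = maxSubgroup v)
include hU

theorem GoodDatum.mono_fin (d : GoodDatum F) (x : Gf F) :
    (d.mono hU).fin x = Orbital.globalFun (d.fin U Bad) x := rfl

theorem GoodDatum.kernel_conjD (d : GoodDatum F) (s t : Spc U) :
    (d.conjD.mono hU).kernel s t = (d.mono hU).adj.kernel s t := by
  classical
  show _ * _ = conj ((d.mono hU).fin _) * ∏ w, conj (_)
  congr 1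
  · rw [(d.mono_isGood hU).fin_inv hU, GoodDatum.mono_fin, GoodDatum.mono_fin, Orbital.globalFun,
      Orbital.globalFun]
    refine (finprod_congr fun v => ?_).trans (MonoidHom.map_finprod
      (starRingEnd ℂ).toMonoidHom ((d.isLocalFamily hU).hasFiniteMulSupport _)).symm
    simp only [GoodDatum.fin, GoodDatum.conjD, RingHom.toMonoidHom_eq_coe, MonoidHom.coe_coe]
    split_ifs <;> simp
  · exact Finset.prod_congr rfl fun w _ =>
      sphKernel_conj (d.test w) (H3.one_le_coshDist _ _)

/-- The finite part of a datum splits off the place `w` on translates maximal there. -/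
theorem GoodDatum.fin_single_mul (d : GoodDatum F) {w : FPlace F} (hw : w ∉ Bad) (g : GLv w)
    {z : Gf F} (hz : (z : ∀ v, GLv v) w ∈ maxSubgroup w) :
    (d.mono hU).fin (single w g * z) = d.loc w (cartan (valv w) g) *
      ((d.setLoc w (Finsupp.single 0 1)).mono hU).fin z := by
  classical
  have e : (fun v => d.fin U Bad v (((single w g * z : Gf F) : ∀ v, GLv v) v)) =
      fun v => Pi.mulSingle (M := fun _ : FPlace F => ℂ) w (d.loc w (cartan (valv w) g)) v *
        (d.setLoc w (Finsupp.single 0 1)).fin U Bad v ((z : ∀ v, GLv v) v) := funext fun v => by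
    show d.fin U Bad v (((single w g : Gf F) : ∀ v, GLv v) v * (z : ∀ v, GLv v) v) = _
    rcases eq_or_ne v w with rfl | hv
    · simp only [Pi.mulSingle_eq_same, GoodDatum.fin, if_neg hw, single_apply_same,
        GoodDatum.setLoc, Function.update_self]
      rw [Tree.cartan_mul_right hz, Tree.cartan_eq_zero_iff.mpr hz, Finsupp.single_eq_same,
        mul_one]
    · simp only [Pi.mulSingle_eq_of_ne hv, single_apply_ne hv, one_mul,
        GoodDatum.setLoc, GoodDatum.fin, Function.update_of_ne hv]
  have hf' := (d.setLoc w (Finsupp.single 0 1)).isLocalFamily hU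
  rw [GoodDatum.mono_fin, GoodDatum.mono_fin, Orbital.globalFun, Orbital.globalFun, e,
    finprod_mul_distrib _ (hf'.hasFiniteMulSupport z), finprod_eq_single _ w fun v hv => ?_,
    Pi.mulSingle_eq_same]
  · exact Pi.mulSingle_eq_of_ne hv _
  · exact Set.Finite.subset (Set.finite_singleton w) (Pi.mulSupport_mulSingle_subset)

/-- A datum with unit function at `w` lives on elements maximal at `w`. -/
theorem GoodDatum.mem_max_of_fin_setLoc (d : GoodDatum F) {w : FPlace F} (hw : w ∉ Bad) {z : Gf F}
    (hz : ((d.setLoc w (Finsupp.single 0 1)).mono hU).fin z ≠ 0) :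
    (z : ∀ v, GLv v) w ∈ maxSubgroup w := by
  classical
  have h := ((d.setLoc w (Finsupp.single 0 1)).isLocalFamily hU).globalFun_ne_zero hz w
  simp only [GoodDatum.fin, if_neg hw, GoodDatum.setLoc, Function.update_self,
    Finsupp.single_apply] at h
  have h0 : cartan (valv w) ((z : ∀ v, GLv v) w) = 0 := by
    by_contra hne
    exact h (if_neg (Ne.symm hne))
  exact Tree.cartan_eq_zero_iff.mp h0

omit hU in
/-- A vertex at `w` and a class with component at `w` in the maximal subgroup are determined by the
class of their product. -/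
theorem eq_of_single_mul_out_eq {w : FPlace F} (hJ : U.J w = maxSubgroup w)
    {u₁ u₂ : Tree.Vert (valv w)} {y₁ y₂ : Ωf U} (h1 : (y₁.out : ∀ v, GLv v) w ∈ maxSubgroup w)
    (h2 : (y₂.out : ∀ v, GLv v) w ∈ maxSubgroup w)
    (he : ((single w u₁.out * y₁.out : Gf F) : Ωf U) = ((single w u₂.out * y₂.out : Gf F) : Ωf U)) :
    u₁ = u₂ ∧ y₁ = y₂ := by
  classical
  have hu : u₁ = u₂ := by
    have hw' := QuotientGroup.eq.1 he w
    rw [hJ] at hw'
    rw [← QuotientGroup.out_eq' u₁, ← QuotientGroup.out_eq' u₂]
    refine QuotientGroup.eq.2 ?_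
    have e : u₁.out⁻¹ * u₂.out = (y₁.out : ∀ v, GLv v) w *
        ((((single w u₁.out * y₁.out : Gf F) : ∀ v, GLv v) w)⁻¹ *
        ((single w u₂.out * y₂.out : Gf F) : ∀ v, GLv v) w) *
        ((y₂.out : ∀ v, GLv v) w)⁻¹ := by
      show _ = _ * ((((single w u₁.out : Gf F) : ∀ v, GLv v) w * _)⁻¹ *
        (((single w u₂.out : Gf F) : ∀ v, GLv v) w * _)) * _
      rw [single_apply_same, single_apply_same]
      group
    rw [e]
    exact mul_mem (mul_mem h1 hw') (inv_mem h2)
  refine ⟨hu, ?_⟩
  rw [← QuotientGroup.out_eq' y₁, ← QuotientGroup.out_eq' y₂]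
  rw [hu, QuotientGroup.eq, mul_inv_rev, mul_assoc, inv_mul_cancel_left] at he
  exact QuotientGroup.eq.2 he

/-- The finite part acting on a function by right translates. -/
def GoodDatum.finSum (d : GoodDatum F) (ψ : Gf F → Hyp F → ℂ) (x : Gf F) (p : Hyp F) : ℂ :=
  ∑ y ∈ (d.mono hU).finite_support.toFinset, (d.mono hU).fin y.out * ψ (x * y.out) p

variable {ψ : Gf F → Hyp F → ℂ} (hr : ∀ x j : Gf F, j ∈ U.group → ψ (x * j) = ψ x)

include hr

/-- A datum with unit finite part does not move anything. -/
theorem GoodDatum.finSum_unit {d : GoodDatum F} (hd : ∀ v ∉ Bad, d.loc v = Finsupp.single 0 1)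
    (x : Gf F) (p : Hyp F) : d.finSum hU ψ x p = ψ x p := by
  classical
  have e : ∀ z : Gf F, (d.mono hU).fin z = if z ∈ U.group then 1 else 0 := fun z => by
    have hv : ∀ v, d.fin U Bad v ((z : ∀ v, GLv v) v) =
        if (z : ∀ v, GLv v) v ∈ U.J v then 1 else 0 := fun v => by
      by_cases hv : v ∈ Bad
      · simp only [GoodDatum.fin, if_pos hv]
      · rw [GoodDatum.fin, if_neg hv, hd v hv, Finsupp.single_apply, hU v hv]
        refine if_congr ?_ rfl rfl
        rw [eq_comm, Tree.cartan_eq_zero_iff]
        rfl
    by_cases hz : z ∈ U.group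
    · rw [if_pos hz, GoodDatum.mono_fin, Orbital.globalFun]
      exact finprod_eq_one_of_forall_eq_one fun v => by rw [hv v, if_pos (hz v)]
    · rw [if_neg hz]
      by_contra hne
      exact hz fun v => by
        have := (d.isLocalFamily hU).globalFun_ne_zero hne v
        rw [hv v] at this
        by_contra hc
        exact this (if_neg hc)
  have hS : (d.mono hU).finite_support.toFinset = {((1 : Gf F) : Ωf U)} := by
    ext y
    rw [Set.Finite.mem_toFinset, Set.mem_ofPred_eq, e, Finset.mem_singleton]
    conv_rhs => rw [← QuotientGroup.out_eq' y, QuotientGroup.eq, mul_one, inv_mem_iff]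
    simp
  have h1 : ((1 : Gf F) : Ωf U).out ∈ U.group := by
    rw [← inv_mem_iff, ← mul_one ((1 : Gf F) : Ωf U).out⁻¹, ← QuotientGroup.eq,
      QuotientGroup.out_eq']
  rw [GoodDatum.finSum, hS, Finset.sum_singleton, e, if_pos h1, one_mul, hr x _ h1]

/-- One place of a datum is a combination of spheres. -/
theorem GoodDatum.finSum_step (d : GoodDatum F) {w : FPlace F} (hw : w ∉ Bad)
    (x : Gf F) (p : Hyp F) :
    d.finSum hU ψ x p = (d.loc w).sum fun n c => c * ∑ u ∈ baseSphere w n,
      (d.setLoc w (Finsupp.single 0 1)).finSum hU ψ (x * single w u.out) p := by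
  classical
  set d' := d.setLoc w (Finsupp.single 0 1)
  have hJ := hU w hw
  have hsplit := fun g {z : Gf F} (hz : (z : ∀ v, GLv v) w ∈ maxSubgroup w) =>
    d.fin_single_mul hU hw g hz
  have hmax := fun (z : Gf F) (hz : (d'.mono hU).fin z ≠ 0) => d.mem_max_of_fin_setLoc hU hw hz
  -- invariance of the terms
  have hterm : ∀ z : Gf F, (d.mono hU).fin ((z : Gf F) : Ωf U).out * ψ (x * (z : Ωf U).out) p =
      (d.mono hU).fin z * ψ (x * z) p := fun z => by
    obtain ⟨j, hj⟩ := QuotientGroup.mk_out_eq_mul U.group z
    rw [(d.mono hU).fin_out, hj, ← mul_assoc, hr _ _ j.2]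
  set T : Finset (Tree.Vert (valv w)) := (d.loc w).support.biUnion fun n => baseSphere w n
  have hdist : ∀ u : Tree.Vert (valv w), Tree.vdist (baseVert w) u = cartan (valv w) u.out :=
    vdist_baseVert_out
  calc d.finSum hU ψ x p
      = ∑ z ∈ T ×ˢ (d'.mono hU).finite_support.toFinset,
          d.loc w (cartan (valv w) z.1.out) *
            ((d'.mono hU).fin z.2.out * ψ (x * single w z.1.out * z.2.out) p) := by
        refine (Finset.sum_bij_ne_zero
          (fun z _ _ => ((single w z.1.out * z.2.out : Gf F) : Ωf U)) ?_ ?_ ?_ ?_).symm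
        · intro z _ hz
          rw [Set.Finite.mem_toFinset, Set.mem_ofPred_eq, (d.mono hU).fin_out,
            hsplit _ (hmax _ (left_ne_zero_of_mul (right_ne_zero_of_mul hz)))]
          exact mul_ne_zero (left_ne_zero_of_mul hz)
            (left_ne_zero_of_mul (right_ne_zero_of_mul hz))
        · intro z₁ _ hz₁ z₂ _ hz₂ he
          obtain ⟨hu, hy⟩ := eq_of_single_mul_out_eq hJ
            (hmax _ (left_ne_zero_of_mul (right_ne_zero_of_mul hz₁)))
            (hmax _ (left_ne_zero_of_mul (right_ne_zero_of_mul hz₂))) he
          exact Prod.ext hu hy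
        · intro q hq hne
          set y := q.out
          set u : Tree.Vert (valv w) := QuotientGroup.mk ((y : ∀ v, GLv v) w)
          set z : Gf F := (single w u.out)⁻¹ * y
          have hzy : single w u.out * z = y := mul_inv_cancel_left _ _
          have hzw : (z : ∀ v, GLv v) w ∈ maxSubgroup w := by
            show (((single w u.out : Gf F) : ∀ v, GLv v) w)⁻¹ * _ ∈ maxSubgroup w
            rw [single_apply_same]
            exact QuotientGroup.eq.1 (QuotientGroup.out_eq' u)
          have hy : (d.mono hU).fin y =
              d.loc w (cartan (valv w) u.out) * (d'.mono hU).fin z := by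
            rw [← hsplit _ hzw, hzy]
          have hy0 := left_ne_zero_of_mul hne
          rw [hy] at hy0
          refine ⟨(u, (z : Ωf U)), Finset.mem_product.mpr ⟨Finset.mem_biUnion.mpr
            ⟨_, Finsupp.mem_support_iff.mpr (left_ne_zero_of_mul hy0),
              mem_baseSphere.mpr (hdist u)⟩, ?_⟩, ?_, ?_⟩
          · rw [Set.Finite.mem_toFinset, Set.mem_ofPred_eq, (d'.mono hU).fin_out]
            exact right_ne_zero_of_mul hy0
          · obtain ⟨j, hj⟩ := QuotientGroup.mk_out_eq_mul U.group z
            simp only [(d'.mono hU).fin_out]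
            rw [hj, ← mul_assoc (x * single w u.out) z, hr _ _ j.2, mul_assoc x, hzy, ← mul_assoc,
              ← hy]
            exact hne
          · obtain ⟨j, hj⟩ := QuotientGroup.mk_out_eq_mul U.group z
            simp only [hj]
            rw [← mul_assoc, hzy, QuotientGroup.mk_mul_of_mem _ j.2, QuotientGroup.out_eq']
        · intro z _ hz
          rw [hterm, hsplit _ (hmax _ (left_ne_zero_of_mul (right_ne_zero_of_mul hz))),
            mul_assoc x, mul_assoc]
    _ = ∑ u ∈ T, d.loc w (cartan (valv w) u.out) * d'.finSum hU ψ (x * single w u.out) p := by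
        rw [Finset.sum_product]
        exact Finset.sum_congr rfl fun u _ => by rw [GoodDatum.finSum, Finset.mul_sum]
    _ = _ := by
        rw [Finset.sum_biUnion, Finsupp.sum]
        · refine Finset.sum_congr rfl fun n _ => ?_
          rw [Finset.mul_sum]
          exact Finset.sum_congr rfl fun u hu => by rw [← hdist u, mem_baseSphere.mp hu]
        · intro m _ n _ hmn
          exact Finset.disjoint_left.mpr fun u hum hun =>
            hmn ((mem_baseSphere.mp hum).symm.trans (mem_baseSphere.mp hun))

open Classical in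
/-- On an eigenfunction the finite part acts by the spherical transforms. -/
theorem GoodDatum.finSum_eigen {a : FPlace F → ℂ}
    (he : ∀ v ∉ Bad, IsSphericalAt v ψ ∧ HasEigenvalue v (a v) ψ) (d : GoodDatum F) (x : Gf F)
    (p : Hyp F) : d.finSum hU ψ x p = (∏ᶠ v, if v ∈ Bad then 1 else
      sphEval (Ideal.absNorm v.asIdeal) (a v) (d.loc v)) * ψ x p := by
  classical
  suffices key : ∀ (T : Finset (FPlace F)) (d : GoodDatum F),
      (∀ v ∉ Bad, v ∉ T → d.loc v = Finsupp.single 0 1) → ∀ (x : Gf F) (p : Hyp F),
      d.finSum hU ψ x p = (∏ v ∈ T, if v ∈ Bad then 1 else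
        sphEval (Ideal.absNorm v.asIdeal) (a v) (d.loc v)) * ψ x p by
    have hfin : {v | d.loc v ≠ Finsupp.single 0 1}.Finite := Filter.eventually_cofinite.mp d.unit
    rw [key hfin.toFinset d (fun v _ hv => by simpa using hv),
      ← finprod_eq_prod_of_mulSupport_subset]
    intro v hv
    rw [Function.mem_mulSupport] at hv
    rw [Set.Finite.coe_toFinset]
    intro h
    exact hv (by rw [h, sphEval_single_zero, ite_self])
  intro T
  induction T using Finset.induction_on with
  | empty =>
    intro d hd x p
    rw [d.finSum_unit hU hr (fun v hv => hd v hv (by simp)), Finset.prod_empty, one_mul]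
  | insert w T hwT ih =>
    intro d hd x p
    rw [Finset.prod_insert hwT]
    by_cases hw : w ∈ Bad
    · rw [if_pos hw, one_mul]
      exact ih d (fun v hv hvT => hd v hv (by simp [hvT, show v ≠ w from fun e => hv (e ▸ hw)])) x p
    rw [d.finSum_step hU hr hw, if_neg hw]
    set C := ∏ v ∈ T, if v ∈ Bad then 1 else sphEval (Ideal.absNorm v.asIdeal) (a v) (d.loc v)
    have hd' : ∀ (z : Gf F), (d.setLoc w (Finsupp.single 0 1)).finSum hU ψ z p = C * ψ z p := by
      intro z
      rw [ih _ (fun v hv hvT => ?_) z p]
      · congr 1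
        refine Finset.prod_congr rfl fun v hv => ?_
        simp only [GoodDatum.setLoc, Function.update_of_ne (fun e : v = w => hwT (e ▸ hv))]
      · simp only [GoodDatum.setLoc]
        rcases eq_or_ne v w with rfl | hne
        · rw [Function.update_self]
        · rw [Function.update_of_ne hne]; exact hd v hv (by simp [hne, hvT])
    obtain ⟨hs, hev⟩ := he w hw
    have hsph : ∀ n, ∑ u ∈ baseSphere w n, ψ (x * single w u.out) p =
        Tree.sphereEigen (Ideal.absNorm w.asIdeal) (a w) n * ψ x p := fun n => by
      have h := sum_sphere_vertFun hs hev (baseVert w) n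
      rw [vertFun_base hs] at h
      have h' := congrFun (congrFun h x) p
      simp only [Finset.sum_apply, Pi.smul_apply, smul_eq_mul] at h'
      exact h'
    simp only [hd', ← Finset.mul_sum, hsph, sphEval]
    rw [Finsupp.sum, Finsupp.sum, Finset.sum_mul, Finset.sum_mul]
    exact Finset.sum_congr rfl fun n _ => by ring

end Fermat.Agent.ResidualThree
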