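import Fermat.Agent.ResidualThree.CubicDescent.Systems
import Fermat.Agent.ResidualThree.Kernel.Monomial

/-!
# Products of radial kernels over the infinite places

Integrals against `∏ w, k w (coshDist (p w) (q w))` are iterated single-place integrals.
-/

noncomputable section

open IsDedekindDomain NumberField MeasureTheory Filter Topology

namespace Fermat.Agent.ResidualThree

/-- A kernel continuous as a function of two points, vanishing at large distance. -/
structure IsPairKernel (k : ℝ → ℂ) : Prop where
  cont : Continuous fun z : H3 × H3 => k (H3.coshDist z.1 z.2)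
  radius : ∃ M, 1 ≤ M ∧ ∀ c, k c ≠ 0 → c ≤ M

theorem H3.IsKernel.isPair {k : ℝ → ℂ} (hk : H3.IsKernel k) : IsPairKernel k := by
  obtain ⟨R, hR1, hR⟩ := hk.exists_radius
  exact ⟨hk.cont.comp H3.continuous_coshDist, R, hR1,
    fun c hc => not_lt.1 fun h => hc (hR c h)⟩

theorem TestMonomial.isPair {F : Type} [Field F] [NumberField F] {U : Level F}
    (f : TestMonomial U) (w : InfinitePlace F) : IsPairKernel (f.arch w) :=
  ⟨f.continuous_arch w, f.arch_radius w⟩

/-- A pair kernel agrees on distances with a continuous kernel of compact support. -/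
theorem IsPairKernel.exists_isKernel {k : ℝ → ℂ} (hk : IsPairKernel k) :
    ∃ k', H3.IsKernel k' ∧ Set.EqOn k' k (Set.Ici 1) := by
  obtain ⟨M, hM1, hM⟩ := hk.radius
  refine ⟨fun c => ((max 0 (min c 1) : ℝ) : ℂ) * k (max c 1), ⟨?_, ?_⟩, fun c (hc : 1 ≤ c) => ?_⟩
  · refine ((Complex.continuous_ofReal.comp (by fun_prop)).mul ?_)
    have h : Continuous fun c : ℝ =>
        k (H3.coshDist H3.base (H3.ofLog (0, Real.arcosh (max c 1)))) :=
      hk.cont.comp (continuous_const.prodMk
        (H3.continuous_ofLog.comp (continuous_const.prodMk H3.continuous_cut)))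
    simpa only [H3.coshDist_base_axis, Real.cosh_arcosh (le_max_right _ (1 : ℝ))] using h
  · refine HasCompactSupport.intro (isCompact_Icc (a := 0) (b := M)) fun c hc => ?_
    rw [Set.mem_Icc, not_and_or, not_le, not_le] at hc
    rcases hc with hc | hc
    · rw [show (max 0 (min c 1) : ℝ) = 0 from max_eq_left (le_trans (min_le_left _ _) hc.le)]
      simp
    · have : k (max c 1) = 0 := by_contra fun h => absurd (hM _ h)
        (not_le.2 (lt_of_lt_of_le hc (le_max_left _ _)))
      rw [this, mul_zero]
  · simp [min_eq_right hc, max_eq_left hc]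

theorem sphZero_congr {k k' : ℝ → ℂ} (h : Set.EqOn k k' (Set.Ici 1)) : sphZero k = sphZero k' := by
  simp only [sphZero, abelTransform]
  refine integral_congr_ae (Eventually.of_forall fun s => congrArg _ ?_)
  exact setIntegral_congr_fun measurableSet_Ioi fun u hu =>
    h ((Real.one_le_cosh s).trans (le_of_lt hu))

/-- The Fubini step: averaging coordinate by coordinate. -/
theorem integral_pi_of_eigen : ∀ (n : ℕ) (k : Fin n → H3 → ℂ) (lam : Fin n → ℂ)
    (G : (Fin n → H3) → ℂ) (p : Fin n → H3),
    (∀ i, Continuous (k i)) → (∀ i, HasCompactSupport (k i)) → Continuous G →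
    (∀ i q, ∫ r, k i r * G (Function.update q i r) ∂H3.vol =
      lam i * G (Function.update q i (p i))) →
    ∫ q, (∏ i, k i (q i)) * G q ∂(Measure.pi fun _ : Fin n => H3.vol) = (∏ i, lam i) * G p
  | 0, k, lam, G, p, _, _, _, _ => by
    rw [Measure.pi_of_empty (fun _ : Fin 0 => H3.vol) p, integral_dirac]
    simp
  | n + 1, k, lam, G, p, hk, hc, hG, he => by
    have hmp := measurePreserving_piFinSuccAbove (fun _ : Fin (n + 1) => H3.vol) 0
    rw [← hmp.symm.integral_comp (MeasurableEquiv.measurableEmbedding _)]
    simp only [MeasurableEquiv.piFinSuccAbove_symm_apply, Fin.insertNthEquiv_zero, Fin.consEquiv,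
      Equiv.coe_fn_mk, Fin.prod_univ_succ, Fin.cons_zero, Fin.cons_succ, mul_assoc]
    change ∫ z, k 0 z.1 * ((∏ i : Fin n, k i.succ (z.2 i)) * G (Fin.cons z.1 z.2))
      ∂H3.vol.prod (Measure.pi fun _ : Fin n => H3.vol) = lam 0 * ((∏ i : Fin n, lam i.succ) * G p)
    have hint : Integrable (fun z : H3 × (Fin n → H3) => k 0 z.1 *
        ((∏ i : Fin n, k i.succ (z.2 i)) * G (Fin.cons z.1 z.2)))
        (H3.vol.prod (Measure.pi fun _ : Fin n => H3.vol)) := by
      refine Continuous.integrable_of_hasCompactSupport (((hk 0).comp continuous_fst).mul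
        ((continuous_finsetProd _ fun i _ => (hk i.succ).comp ((continuous_apply i).comp
          continuous_snd)).mul (hG.comp
            (Continuous.finCons (A := fun _ => H3) continuous_fst continuous_snd)))) ?_
      refine HasCompactSupport.intro ((hc 0).isCompact.prod
        (isCompact_univ_pi fun i : Fin n => (hc i.succ).isCompact)) fun z hz => ?_
      rw [Set.mem_prod, not_and_or] at hz
      rcases hz with hz | hz
      · rw [image_eq_zero_of_notMem_tsupport hz, zero_mul]
      · rw [Set.mem_univ_pi, not_forall] at hz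
        obtain ⟨i, hi⟩ := hz
        rw [Finset.prod_eq_zero (Finset.mem_univ i)
          (image_eq_zero_of_notMem_tsupport (f := k i.succ) hi)]
        simp
    rw [integral_prod _ hint]
    have hinner : ∀ r : H3, ∫ z : Fin n → H3, k 0 r *
        ((∏ i : Fin n, k i.succ (z i)) * G (Fin.cons r z)) ∂(Measure.pi fun _ : Fin n => H3.vol) =
        (∏ i : Fin n, lam i.succ) * (k 0 r * G (Fin.cons r (Fin.tail p))) := fun r => by
      rw [integral_const_mul, integral_pi_of_eigen n (fun i => k i.succ) (fun i => lam i.succ)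
        (fun z => G (Fin.cons r z)) (Fin.tail p) (fun i => hk _) (fun i => hc _)
        (hG.comp (continuous_const.finCons continuous_id)) fun i q => ?_]
      · ring
      · have := he i.succ (Fin.cons r q)
        simp only [Fin.cons_update] at this ⊢
        exact this
    simp only [hinner, integral_const_mul]
    have h0 := he 0 (Fin.cons (p 0) (Fin.tail p))
    simp only [Fin.update_cons_zero] at h0
    rw [h0, Fin.cons_self_tail]
    ring

variable {F : Type} [Field F] [NumberField F]

theorem continuous_archProd {K : InfinitePlace F → ℝ → ℂ} (hK : ∀ w, IsPairKernel (K w))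
    (p : Hyp F) : Continuous fun q : Hyp F => ∏ w, K w (H3.coshDist (p w) (q w)) :=
  continuous_finsetProd _ fun w _ =>
    (hK w).cont.comp (continuous_const.prodMk (continuous_apply w))

theorem hasCompactSupport_archProd {K : InfinitePlace F → ℝ → ℂ} (hK : ∀ w, IsPairKernel (K w))
    (p : Hyp F) : HasCompactSupport fun q : Hyp F => ∏ w, K w (H3.coshDist (p w) (q w)) := by
  choose M _ hM using fun w => (hK w).radius
  refine HasCompactSupport.intro (isCompact_univ_pi fun w => H3.isCompact_ball (p w) (M w))
    fun q hq => ?_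
  rw [Set.mem_univ_pi, not_forall] at hq
  obtain ⟨w, hw⟩ := hq
  exact Finset.prod_eq_zero (Finset.mem_univ w) (by_contra fun h => hw (hM w _ h))

theorem integrable_archProd {K : InfinitePlace F → ℝ → ℂ} (hK : ∀ w, IsPairKernel (K w))
    (p : Hyp F) {G : Hyp F → ℂ} (hG : Continuous G) :
    Integrable (fun q : Hyp F => (∏ w, K w (H3.coshDist (p w) (q w))) * G q)
      (Measure.pi fun _ : InfinitePlace F => H3.vol) :=
  ((continuous_archProd hK p).mul hG).integrable_of_hasCompactSupport
    (hasCompactSupport_archProd hK p).mul_right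

open Classical in
/-- An eigenfunction of a radial kernel in each coordinate is one of their product. -/
theorem integral_archProd_eigen {K : InfinitePlace F → ℝ → ℂ} (hK : ∀ w, IsPairKernel (K w))
    (lam : InfinitePlace F → ℂ) {G : Hyp F → ℂ} (hG : Continuous G)
    (he : ∀ w q, ∫ r, K w (H3.coshDist (q w) r) * G (Function.update q w r) ∂H3.vol =
      lam w * G q) (p : Hyp F) :
    ∫ q, (∏ w, K w (H3.coshDist (p w) (q w))) * G q ∂(Measure.pi fun _ => H3.vol) =
      (∏ w, lam w) * G p := by
  set e := (Fintype.equivFin (InfinitePlace F)).symm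
  have h1 : MeasurePreserving (MeasurableEquiv.piCongrLeft (fun _ => H3) e)
      (Measure.pi fun _ : Fin (Fintype.card (InfinitePlace F)) => H3.vol)
      (Measure.pi fun _ : InfinitePlace F => H3.vol) :=
    measurePreserving_piCongrLeft (fun _ : InfinitePlace F => H3.vol) e
  have hc : ∀ z : Fin (Fintype.card (InfinitePlace F)) → H3,
      MeasurableEquiv.piCongrLeft (fun _ => H3) e z = z ∘ e.symm := fun z => funext fun w => by
    conv_lhs => rw [← e.apply_symm_apply w, MeasurableEquiv.piCongrLeft_apply_apply]
    rfl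
  rw [← h1.integral_comp (MeasurableEquiv.measurableEmbedding _)]
  simp only [hc]
  rw [show (∏ w, lam w) = ∏ i, lam (e i) from (e.prod_comp lam).symm,
    show G p = G ((p ∘ e) ∘ e.symm) by congr 1; funext w; simp,
    ← integral_pi_of_eigen _ (fun i r => K (e i) (H3.coshDist (p (e i)) r)) (fun i => lam (e i))
      (fun z => G (z ∘ e.symm)) (p ∘ e)]
  · refine integral_congr_ae (Eventually.of_forall fun z => ?_)
    simp only [Function.comp_apply]
    congr 1
    rw [← e.prod_comp]
    simp
  · exact fun i => (hK (e i)).cont.comp (continuous_const.prodMk continuous_id)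
  · intro i
    obtain ⟨M, -, hM⟩ := (hK (e i)).radius
    exact HasCompactSupport.intro (H3.isCompact_ball (p (e i)) M)
      fun r hr => by_contra fun h => hr (hM _ h)
  · exact hG.comp (continuous_pi fun w => continuous_apply _)
  · intro i q
    have := he (e i) (Function.update (q ∘ e.symm) (e i) (p (e i)))
    simp only [Function.update_self, Function.update_idem] at this
    simpa [Function.update_comp_equiv] using this

/-- A form of parameter zero is an eigenfunction of every product of radial kernels. -/
theorem IsSpectralZero.integral_archProd {φ : Gf F → Hyp F → ℂ} (hs : IsSpectralZero φ)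
    {K : InfinitePlace F → ℝ → ℂ} (hK : ∀ w, IsPairKernel (K w)) (x : Gf F)
    (hc : Continuous (φ x)) (p : Hyp F) :
    ∫ q, (∏ w, K w (H3.coshDist (p w) (q w))) * φ x q ∂(Measure.pi fun _ => H3.vol) =
      (∏ w, sphZero (K w)) * φ x p := by
  classical
  refine integral_archProd_eigen hK _ hc (fun w q => ?_) p
  obtain ⟨k', hk', hkk⟩ := (hK w).exists_isKernel
  rw [← sphZero_congr hkk, ← hs x w k' hk'.cont hk'.compact q]
  refine integral_congr_ae (Eventually.of_forall fun r => ?_)
  simp only [hkk (H3.one_le_coshDist (q w) r)]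

theorem integrableOn_count_finset {α E : Type*} [MeasurableSpace α] [MeasurableSingletonClass α]
    [NormedAddCommGroup E] (s : Finset α) (f : α → E) :
    IntegrableOn f (s : Set α) (Measure.count : Measure α) := by
  rw [← (s : Set α).biUnion_of_singleton]
  simp [integrableOn_finset_iUnion]

/-- The action of a monomial: right translates over its support, then the product kernel. -/
theorem TestMonomial.act_eq_sum {U : Level F} (f : TestMonomial U) {φ : Gf F → Hyp F → ℂ}
    (hφ : IsAutomorphic U φ) (x : Gf F) (p : Hyp F) :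
    f.act φ x p = ∑ y ∈ f.finite_support.toFinset, f.fin y.out *
      ∫ q, (∏ w, f.arch w (H3.coshDist (p w) (q w))) * φ (x * y.out) q
        ∂(Measure.pi fun _ => H3.vol) := by
  classical
  obtain ⟨A, hAdef⟩ : ∃ A : Ωf U → ℂ, ∀ ξ, A ξ = f.fin ((x : Ωf U).out⁻¹ * ξ.out) :=
    ⟨_, fun ξ => rfl⟩
  obtain ⟨B, hBdef⟩ : ∃ B : Ωf U → Hyp F → ℂ, ∀ ξ, B ξ =
      fun q => (∏ w, f.arch w (H3.coshDist (p w) (q w))) * φ ξ.out q := ⟨_, fun ξ => rfl⟩
  set S : Finset (Ωf U) :=
    f.finite_support.toFinset.image fun y => ((x * y.out : Gf F) : Ωf U) with hS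
  have hA : ∀ ξ, ξ ∉ S → A ξ = 0 := fun ξ hξ => by
    by_contra h
    refine hξ (Finset.mem_image.2 ⟨((x⁻¹ * ξ.out : Gf F) : Ωf U), ?_, ?_⟩)
    · rw [Set.Finite.mem_toFinset, Set.mem_ofPred_eq, f.fin_out]
      rwa [hAdef, show f.fin ((x : Ωf U).out⁻¹ * ξ.out) = f.fin (x⁻¹ * ξ.out) by
        rw [← f.fin_out_mul_out x, QuotientGroup.out_eq']] at h
    · obtain ⟨j, hj⟩ := QuotientGroup.mk_out_eq_mul U.group (x⁻¹ * ξ.out)
      rw [hj, ← mul_assoc, mul_inv_cancel_left, ← QuotientGroup.out_eq' ξ, QuotientGroup.out_eq',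
        QuotientGroup.mk_mul_of_mem _ j.2, QuotientGroup.out_eq']
  have hBi : ∀ ξ, Integrable (B ξ) (Measure.pi fun _ : InfinitePlace F => H3.vol) := fun ξ => by
    rw [hBdef]
    exact integrable_archProd f.isPair p (hφ.continuous ξ.out)
  have hm : AEStronglyMeasurable (fun t : Spc U => A t.1 * B t.1 t.2) (volSpc U) :=
    Measurable.aestronglyMeasurable <|
      measurable_from_prod_countable_right fun ξ =>
        (show Continuous fun q => A ξ * B ξ q by
          rw [hBdef]
          exact continuous_const.mul
            ((continuous_archProd f.isPair p).mul (hφ.continuous ξ.out))).measurable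
  have hint : Integrable (fun t : Spc U => A t.1 * B t.1 t.2) (volSpc U) := by
    rw [volSpc] at hm ⊢
    refine (integrable_prod_iff hm).2 ⟨Eventually.of_forall fun ξ => (hBi ξ).const_mul (A ξ), ?_⟩
    refine IntegrableOn.integrable_of_forall_notMem_eq_zero (s := (S : Set (Ωf U))) ?_
      fun ξ hξ => ?_
    · exact integrableOn_count_finset _ _
    · simp [hA ξ hξ]
  have e : ∀ t : Spc U,
      f.kernel ((x : Ωf U), p) t * φ t.1.out t.2 = A t.1 * B t.1 t.2 := fun t => by
    simp only [TestMonomial.kernel, hAdef, hBdef]; ring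
  rw [TestMonomial.act, integral_congr_ae (Eventually.of_forall e), volSpc, integral_prod _ hint]
  have hsum : ∫ ξ, ∫ q, A ξ * B ξ q ∂(Measure.pi fun _ => H3.vol)
      ∂(Measure.count : Measure (Ωf U)) =
        ∑ ξ ∈ S, A ξ * ∫ q, B ξ q ∂(Measure.pi fun _ => H3.vol) := by
    simp only [integral_const_mul]
    rw [← setIntegral_eq_integral_of_forall_compl_eq_zero (s := (S : Set (Ωf U))) fun ξ hξ => by
      rw [hA ξ hξ, zero_mul], setIntegral_finset _ (integrableOn_count_finset _ _)]
    simp [measureReal_def]
  rw [hsum, hS, Finset.sum_image]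
  · refine Finset.sum_congr rfl fun y _ => ?_
    have hy : φ ((x * y.out : Gf F) : Ωf U).out = φ (x * y.out) := by
      obtain ⟨j, hj⟩ := QuotientGroup.mk_out_eq_mul U.group (x * y.out)
      rw [hj, hφ.right _ _ j.2]
    simp only [hAdef, hBdef, hy]
    rw [f.fin_out_mul_out, inv_mul_cancel_left]
  · intro y _ y' _ h
    rw [QuotientGroup.eq, mul_inv_rev, mul_assoc, inv_mul_cancel_left, ← QuotientGroup.eq,
      QuotientGroup.out_eq', QuotientGroup.out_eq'] at h
    exact h

/-- On a form of parameter zero a monomial acts by right translates. -/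
theorem TestMonomial.act_eq_of_spectralZero {U : Level F} (f : TestMonomial U)
    {φ : Gf F → Hyp F → ℂ} (hφ : IsAutomorphic U φ) (hs : IsSpectralZero φ) (x : Gf F)
    (p : Hyp F) : f.act φ x p = (∏ w, sphZero (f.arch w)) *
      ∑ y ∈ f.finite_support.toFinset, f.fin y.out * φ (x * y.out) p := by
  rw [f.act_eq_sum hφ, Finset.mul_sum]
  refine Finset.sum_congr rfl fun y _ => ?_
  rw [hs.integral_archProd f.isPair _ (hφ.continuous _)]
  ring

end Fermat.Agent.ResidualThree
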