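import Fermat.Agent.ResidualThree.Automorphic.Forms
import Fermat.Agent.ResidualThree.CubicDescent.Spectral.KernelAlg

/-!
# Radial operators at one infinite place and their compositions

`placeOp` applies a radial kernel in one coordinate. It composes through `H3.compKernel` and peels
one place off the integral against a product kernel.
-/

noncomputable section

open IsDedekindDomain NumberField MeasureTheory Filter Topology Set

namespace Fermat.Agent.ResidualThree

/-- The triangle inequality for the hyperbolic cosine of the distance. -/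
theorem H3.coshDist_le_cosh_add {p r q : H3} {R R' : ℝ} (hR : 1 ≤ R) (hR' : 1 ≤ R')
    (h : H3.coshDist p r ≤ R) (h' : H3.coshDist r q ≤ R') :
    H3.coshDist p q ≤ Real.cosh (Real.arcosh R + Real.arcosh R') := by
  have pos : ∀ {a b : H3}, 0 < H3.coshDist a b := fun {a b} =>
    one_pos.trans_le (H3.one_le_coshDist a b)
  rw [← H3.cosh_hdist]
  refine Real.cosh_le_cosh.2 ?_
  rw [abs_of_nonneg (H3.hdist_nonneg _ _), abs_of_nonneg (add_nonneg
    (Real.arcosh_nonneg hR) (Real.arcosh_nonneg hR'))]
  exact (H3.hdist_triangle p r q).trans (add_le_add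
    ((Real.arcosh_le_arcosh pos (one_pos.trans_le hR)).2 h)
    ((Real.arcosh_le_arcosh pos (one_pos.trans_le hR')).2 h'))

/-- Composition of radial operators at one place. -/
theorem H3.integral_comp_apply {k k' : ℝ → ℂ} (hk : H3.IsKernel k) (hk' : H3.IsKernel k')
    {G : H3 → ℂ} (hG : Continuous G) (p : H3) :
    ∫ r, k (H3.coshDist p r) * ∫ q, k' (H3.coshDist r q) * G q ∂H3.vol ∂H3.vol =
      ∫ q, H3.compKernel k k' (H3.coshDist p q) * G q ∂H3.vol := by
  obtain ⟨R, hR1, hR⟩ := hk.exists_radius
  obtain ⟨R', hR1', hR'⟩ := hk'.exists_radius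
  have hf : Continuous (Function.uncurry fun r q : H3 =>
      k (H3.coshDist p r) * (k' (H3.coshDist r q) * G q)) :=
    ((hk.cont.comp (H3.continuous_coshDist_right p)).comp continuous_fst).mul
      ((hk'.cont.comp H3.continuous_coshDist).mul (hG.comp continuous_snd))
  have hc : HasCompactSupport (Function.uncurry fun r q : H3 =>
      k (H3.coshDist p r) * (k' (H3.coshDist r q) * G q)) := by
    refine HasCompactSupport.intro ((H3.isCompact_ball p R).prod (H3.isCompact_ball p
      (Real.cosh (Real.arcosh R + Real.arcosh R')))) fun z hz => ?_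
    by_contra h
    simp only [Function.uncurry] at h
    have h1 : H3.coshDist p z.1 ≤ R := not_lt.1 fun hh => h (by rw [hR _ hh, zero_mul])
    have h2 : H3.coshDist z.1 z.2 ≤ R' :=
      not_lt.1 fun hh => h (by rw [hR' _ hh, zero_mul, mul_zero])
    exact hz ⟨h1, H3.coshDist_le_cosh_add hR1 hR1' h1 h2⟩
  simp only [← integral_const_mul]
  rw [integral_integral_swap_of_hasCompactSupport hf hc]
  refine integral_congr_ae (Eventually.of_forall fun q => ?_)
  simp only
  rw [← H3.integral_kernel_comp, ← integral_mul_const]
  exact integral_congr_ae (Eventually.of_forall fun r => (mul_assoc _ _ _).symm)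

variable {F : Type} [Field F] [NumberField F]

open Classical in
/-- A radial operator at one infinite place. -/
def placeOp (w : InfinitePlace F) (k : ℝ → ℂ) (φ : Gf F → Hyp F → ℂ) : Gf F → Hyp F → ℂ :=
  fun x p => ∫ r, k (H3.coshDist (p w) r) * φ x (Function.update p w r) ∂H3.vol

/-- A product of radial operators. -/
def archInt (K : InfinitePlace F → ℝ → ℂ) (φ : Gf F → Hyp F → ℂ) : Gf F → Hyp F → ℂ :=
  fun x p => ∫ q, (∏ w, K w (H3.coshDist (p w) (q w))) * φ x q ∂(Measure.pi fun _ => H3.vol)

variable {w : InfinitePlace F} {k k' : ℝ → ℂ} {φ : Gf F → Hyp F → ℂ} {x : Gf F}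

theorem placeOp_congr (h : EqOn k k' (Ici 1)) : placeOp w k φ = placeOp w k' φ := by
  funext x p
  simp only [placeOp, h (H3.one_le_coshDist _ _)]

theorem archInt_congr {K K' : InfinitePlace F → ℝ → ℂ} (h : ∀ w, EqOn (K w) (K' w) (Ici 1)) :
    archInt K φ = archInt K' φ := by
  funext x p
  simp only [archInt, fun w q => h w (H3.one_le_coshDist (p w) q)]

theorem placeOp_const_smul (c : ℂ) (p : Hyp F) :
    placeOp w k (fun x p => c * φ x p) x p = c * placeOp w k φ x p := by
  simp only [placeOp, ← integral_const_mul]
  exact integral_congr_ae (Eventually.of_forall fun r => by ring)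

theorem placeOp_smul_kernel (c : ℂ) (p : Hyp F) :
    placeOp w (fun u => c * k u) φ x p = c * placeOp w k φ x p := by
  simp only [placeOp, ← integral_const_mul, mul_assoc]

open Classical in
theorem placeOp_add_kernel (hk : H3.IsKernel k) (hk' : H3.IsKernel k') (hc : Continuous (φ x))
    (p : Hyp F) :
    placeOp w (fun u => k u + k' u) φ x p = placeOp w k φ x p + placeOp w k' φ x p := by
  simp only [placeOp, add_mul]
  exact integral_add (hk.integrable_mul _ (continuous_update_place hc p w))
    (hk'.integrable_mul _ (continuous_update_place hc p w))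

open Classical in
/-- Two operators at one place compose to the composed kernel. -/
theorem placeOp_placeOp (hk : H3.IsKernel k) (hk' : H3.IsKernel k') (hc : Continuous (φ x))
    (p : Hyp F) :
    placeOp w k (placeOp w k' φ) x p = placeOp w (H3.compKernel k k') φ x p := by
  simp only [placeOp, Function.update_self, Function.update_idem]
  exact H3.integral_comp_apply hk hk' (continuous_update_place hc p w) (p w)

open Classical in
theorem placeOp_archInt (hk : H3.IsKernel k) {K : InfinitePlace F → ℝ → ℂ}
    (hK : ∀ v, H3.IsKernel (K v)) (hc : Continuous (φ x)) (p : Hyp F) :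
    placeOp w k (archInt K φ) x p =
      archInt (Function.update K w (H3.compKernel k (K w))) φ x p := by
  obtain ⟨R, hR1, hR⟩ := hk.exists_radius
  choose M hM1 hM using fun v => (hK v).exists_radius
  have hprod : ∀ r : H3, ∀ q : Hyp F,
      ∏ v, K v (H3.coshDist (Function.update p w r v) (q v)) = K w (H3.coshDist r (q w)) *
        ∏ v ∈ Finset.univ.erase w, K v (H3.coshDist (p v) (q v)) := fun r q => by
    rw [← Finset.mul_prod_erase _ _ (Finset.mem_univ w), Function.update_self]
    congr 1
    exact Finset.prod_congr rfl fun v hv => by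
      rw [Function.update_of_ne (Finset.ne_of_mem_erase hv)]
  set f : H3 → Hyp F → ℂ := fun r q =>
    k (H3.coshDist (p w) r) * ((K w (H3.coshDist r (q w)) *
      ∏ v ∈ Finset.univ.erase w, K v (H3.coshDist (p v) (q v))) * φ x q)
  have hf : Continuous (Function.uncurry f) := by
    refine ((hk.cont.comp (H3.continuous_coshDist_right (p w))).comp continuous_fst).mul
      ((((hK w).cont.comp (H3.continuous_coshDist.comp (continuous_fst.prodMk
        ((continuous_apply w).comp continuous_snd)))).mul
        (continuous_finsetProd _ fun v _ => ?_)).mul (hc.comp continuous_snd))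
    exact (hK v).cont.comp
      ((H3.continuous_coshDist_right (p v)).comp ((continuous_apply v).comp continuous_snd))
  have hs : HasCompactSupport (Function.uncurry f) := by
    refine HasCompactSupport.intro ((H3.isCompact_ball (p w) R).prod (isCompact_univ_pi fun v =>
      H3.isCompact_ball (p v) (if v = w then Real.cosh (Real.arcosh R + Real.arcosh (M w))
        else M v))) fun z hz => ?_
    by_contra h
    simp only [Function.uncurry, f, mul_eq_zero, not_or, Finset.prod_eq_zero_iff,
      not_exists, not_and] at h
    obtain ⟨h1, ⟨h2, h3⟩, -⟩ := h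
    have h1' : H3.coshDist (p w) z.1 ≤ R := not_lt.1 fun hh => h1 (hR _ hh)
    refine hz ⟨h1', Set.mem_univ_pi.2 fun v => ?_⟩
    show H3.coshDist (p v) (z.2 v) ≤ _
    split_ifs with hv
    · subst hv
      have h2' : H3.coshDist z.1 (z.2 v) ≤ M v := not_lt.1 fun hh => h2 (hM _ _ hh)
      exact H3.coshDist_le_cosh_add hR1 (hM1 v) h1' h2'
    · exact not_lt.1 fun hh => h3 v (Finset.mem_erase.2 ⟨hv, Finset.mem_univ v⟩) (hM _ _ hh)
  show ∫ r, k (H3.coshDist (p w) r) *
      ∫ q, (∏ v, K v (H3.coshDist (Function.update p w r v) (q v))) * φ x q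
        ∂(Measure.pi fun _ => H3.vol) ∂H3.vol = _
  simp only [hprod, ← integral_const_mul]
  show ∫ r, ∫ q, f r q ∂(Measure.pi fun _ => H3.vol) ∂H3.vol = _
  rw [integral_integral_swap_of_hasCompactSupport hf hs]
  refine integral_congr_ae (Eventually.of_forall fun q => ?_)
  simp only
  rw [← Finset.mul_prod_erase _ _ (Finset.mem_univ w), Function.update_self,
    ← H3.integral_kernel_comp, ← integral_mul_const, ← integral_mul_const]
  refine integral_congr_ae (Eventually.of_forall fun r => ?_)
  simp only [f]
  rw [Finset.prod_congr rfl fun v hv =>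
    show Function.update K w (H3.compKernel k (K w)) v (H3.coshDist (p v) (q v)) =
      K v (H3.coshDist (p v) (q v)) by rw [Function.update_of_ne (Finset.ne_of_mem_erase hv)]]
  ring

theorem norm_placeOp_le (hk : H3.IsKernel k) {C : ℝ} (hC : ∀ p, ‖φ x p‖ ≤ C) (p : Hyp F) :
    ‖placeOp w k φ x p‖ ≤ C * ∫ q, ‖k (H3.coshDist H3.base q)‖ ∂H3.vol := by
  classical
  exact hk.norm_integral_le (p w) fun q => hC _

end Fermat.Agent.ResidualThree
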