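import Fermat.Agent.ResidualThree.Kernel.Image

/-!
# The operator of a test function on integrable functions of the quotient

The automorphic kernel is bounded in the second variable, uniformly on boxes in the first one, so
it acts pointwise on integrable functions; the images are invariant and continuous.
-/

noncomputable section

open IsDedekindDomain NumberField MeasureTheory Filter Topology
open scoped ENNReal NNReal ComplexConjugate

namespace Fermat.Agent.ResidualThree.Spectral

variable {F : Type} [Field F] [NumberField F] [IsTotallyComplex F] {U : Level F}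

open Kernel (qMeas)

theorem exists_bound_autKernel_right (f : TestFun U) (s : Spc U) :
    ∃ C : ℝ, 0 ≤ C ∧ ∀ t, ‖autKernel f s t‖ ≤ C := by
  obtain ⟨X, c, B, R, hX, hc, hs⟩ := exists_mem_boxSet s
  obtain ⟨C, hC0, hC⟩ := Kernel.autKernel_bound_box_left f hX hc B R
  exact ⟨C, hC0, hC s hs⟩

omit [IsTotallyComplex F] in
theorem measurable_autKernel_left (f : TestFun U) (t : Spc U) :
    Measurable fun s => autKernel f s t :=
  Measurable.comp (g := fun z : Spc U × Spc U => autKernel f z.1 z.2)
    (f := fun s : Spc U => (s, t)) (measurable_autKernel f) (measurable_id.prodMk measurable_const)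

omit [IsTotallyComplex F] in
/-- Rows and columns of the automorphic kernel have bounded mass. -/
theorem exists_mass_bound (W : QuotientWeight U) (f : TestFun U) :
    ∃ C : ℝ≥0∞, C ≠ ⊤ ∧ (∀ s, ∫⁻ t, ‖autKernel f s t‖ₑ ∂qMeas W ≤ C) ∧
      ∀ t, ∫⁻ s, ‖autKernel f s t‖ₑ ∂qMeas W ≤ C := by
  obtain ⟨C, hC, hC'⟩ := exists_l1_bound f
  obtain ⟨D, hD, hD'⟩ := exists_l1_bound (adjFun f)
  refine ⟨C + D, ENNReal.add_ne_top.mpr ⟨hC, hD⟩,
    fun s => (Kernel.lintegral_autKernel_le W f hC' s).trans le_self_add, fun t => ?_⟩
  refine le_trans (le_of_eq (lintegral_congr fun s => ?_))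
    ((Kernel.lintegral_autKernel_le W (adjFun f) hD' t).trans le_add_self)
  rw [autKernel_adjFun, RCLike.enorm_conj]

/-- The operator of a test function on functions of the quotient. -/
def opPt (W : QuotientWeight U) (f : TestFun U) (v : Spc U → ℂ) (s : Spc U) : ℂ :=
  ∫ t, autKernel f s t * v t ∂qMeas W

/-- Invariance under `PGL₂(F)`. -/
def IsInvariantFn (v : Spc U → ℂ) : Prop := ∀ (γ : PGLF F) (s : Spc U), v (γ • s) = v s

omit [IsTotallyComplex F] in
theorem isInvariantFn_opPt (W : QuotientWeight U) (f : TestFun U) (v : Spc U → ℂ) :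
    IsInvariantFn (opPt W f v) := fun γ s => by
  simp only [opPt, autKernel_smul_left]

theorem integrable_autKernel_mul (W : QuotientWeight U) (f : TestFun U) (s : Spc U)
    {v : Spc U → ℂ} (hv : Integrable v (qMeas W)) :
    Integrable (fun t => autKernel f s t * v t) (qMeas W) := by
  obtain ⟨C, -, hC⟩ := exists_bound_autKernel_right f s
  exact hv.bdd_mul (c := C) (measurable_autKernel_right f s).aestronglyMeasurable
    (Eventually.of_forall hC)

omit [IsTotallyComplex F] in
theorem opPt_congr_ae (W : QuotientWeight U) (f : TestFun U) {v v' : Spc U → ℂ}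
    (h : v =ᵐ[qMeas W] v') : opPt W f v = opPt W f v' := by
  funext s
  exact integral_congr_ae (h.mono fun t ht => by simp only [ht])

omit [IsTotallyComplex F] in
theorem opPt_congr_kernel (W : QuotientWeight U) {f g : TestFun U}
    (h : ∀ s t, autKernel f s t = autKernel g s t) (v : Spc U → ℂ) : opPt W f v = opPt W g v := by
  funext s
  simp only [opPt, h]

omit [IsTotallyComplex F] in
theorem opPt_smul (W : QuotientWeight U) (f : TestFun U) (c : ℂ) (v : Spc U → ℂ) :
    opPt W f (fun t => c * v t) = fun s => c * opPt W f v s := by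
  funext s
  rw [opPt, opPt, ← integral_const_mul]
  exact integral_congr_ae (Eventually.of_forall fun t => by ring)

omit [IsTotallyComplex F] in
theorem opPt_zero (W : QuotientWeight U) (f : TestFun U) :
    opPt W f (fun _ => 0) = fun _ => 0 := by
  funext s
  simp [opPt]

omit [IsTotallyComplex F] in
theorem opPt_nil (W : QuotientWeight U) (v : Spc U → ℂ) (s : Spc U) :
    opPt W ([] : TestFun U) v s = 0 := by
  simp [opPt, autKernel, kernel_nil]

theorem opPt_cons (W : QuotientWeight U) (a : TestMonomial U) (f : TestFun U) {v : Spc U → ℂ}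
    (hv : Integrable v (qMeas W)) (s : Spc U) :
    opPt W (a :: f) v s = opPt W [a] v s + opPt W f v s := by
  rw [opPt, opPt, opPt,
    ← integral_add (integrable_autKernel_mul W [a] s hv) (integrable_autKernel_mul W f s hv)]
  exact integral_congr_ae (Eventually.of_forall fun t => by simp only [autKernel_cons a f, add_mul])

omit [IsTotallyComplex F] in
theorem opPt_eq_onSpc (W : QuotientWeight U) (f : TestFun U) (v : Spc U → ℂ) :
    opPt W f v = onSpc U (Kernel.imageFn W f v) :=
  funext fun s => (Kernel.onSpc_imageFn W f v s).symm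

/-- The images are continuous in the infinite part. -/
theorem continuous_opPt (W : QuotientWeight U) (f : TestFun U) {v : Spc U → ℂ}
    (hv : Integrable v (qMeas W)) (ω : Ωf U) :
    Continuous fun p : Hyp F => opPt W f v (ω, p) := by
  simp only [opPt_eq_onSpc, onSpc]
  exact (Kernel.isAutomorphic_imageFn W f hv).continuous _

omit [IsTotallyComplex F] in
/-- The kernel times an integrable function of the second variable is integrable on the square. -/
theorem integrable_autKernel_mul_prod (W : QuotientWeight U) (f : TestFun U) {v : Spc U → ℂ}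
    (hv : Integrable v (qMeas W)) :
    Integrable (fun z : Spc U × Spc U => autKernel f z.1 z.2 * v z.2)
      ((qMeas W).prod (qMeas W)) := by
  obtain ⟨C, hC, -, hcol⟩ := exists_mass_bound W f
  have hm : AEStronglyMeasurable (fun z : Spc U × Spc U => autKernel f z.1 z.2 * v z.2)
      ((qMeas W).prod (qMeas W)) :=
    (measurable_autKernel f).aestronglyMeasurable.mul hv.aestronglyMeasurable.comp_snd
  refine ⟨hm, ?_⟩
  rw [hasFiniteIntegral_iff_enorm, lintegral_prod_symm _ hm.enorm]
  refine lt_of_le_of_lt (lintegral_mono (g := fun t => C * ‖v t‖ₑ) fun t => ?_) ?_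
  · simp only [enorm_mul]
    rw [lintegral_mul_const _ (measurable_autKernel_left f t).enorm]
    exact mul_le_mul' (hcol t) le_rfl
  · rw [lintegral_const_mul' _ _ hC]
    exact ENNReal.mul_lt_top hC.lt_top hv.2

omit [IsTotallyComplex F] in
theorem integrable_opPt (W : QuotientWeight U) (f : TestFun U) {v : Spc U → ℂ}
    (hv : Integrable v (qMeas W)) : Integrable (opPt W f v) (qMeas W) :=
  (integrable_autKernel_mul_prod W f hv).integral_prod_left

/-- The operator of a composition. -/
theorem opPt_convFun (W : QuotientWeight U) (f g : TestFun U) {v : Spc U → ℂ}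
    (hv : Integrable v (qMeas W)) (s : Spc U) :
    opPt W (convFun f g) v s = opPt W f (opPt W g v) s := by
  obtain ⟨C, -, hC⟩ := exists_bound_autKernel_right f s
  have hint : Integrable (fun z : Spc U × Spc U =>
      autKernel f s z.1 * (autKernel g z.1 z.2 * v z.2)) ((qMeas W).prod (qMeas W)) :=
    (integrable_autKernel_mul_prod W g hv).bdd_mul (c := C)
      (Measurable.aestronglyMeasurable
        ((measurable_autKernel_right f s).comp measurable_fst))
      (Eventually.of_forall fun z => hC z.1)
  simp only [opPt, ← autKernel_convFun W f g, ← integral_const_mul, ← integral_mul_const]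
  rw [integral_integral_swap (f := fun y t => autKernel f s y * (autKernel g y t * v t)) hint]
  exact integral_congr_ae (Eventually.of_forall fun t =>
    integral_congr_ae (Eventually.of_forall fun y => mul_assoc _ _ _))

/-- Bounded measurable functions are integrable on the quotient. -/
theorem integrable_of_bounded (W : QuotientWeight U) {φ : Spc U → ℂ} (hm : Measurable φ)
    {C : ℝ} (hC : ∀ s, ‖φ s‖ ≤ C) : Integrable φ (qMeas W) :=
  Integrable.of_bound hm.aestronglyMeasurable C (Eventually.of_forall hC)

omit [IsTotallyComplex F] in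
/-- The pairing of an image with a bounded function. -/
theorem integral_conj_mul_opPt (W : QuotientWeight U) (f : TestFun U) {φ v : Spc U → ℂ}
    (hφ : Measurable φ) {C : ℝ} (hC : ∀ s, ‖φ s‖ ≤ C) (hv : Integrable v (qMeas W)) :
    ∫ s, conj (φ s) * opPt W f v s ∂qMeas W =
      ∫ t, conj (opPt W (adjFun f) φ t) * v t ∂qMeas W := by
  have hint : Integrable (fun z : Spc U × Spc U =>
      conj (φ z.1) * (autKernel f z.1 z.2 * v z.2)) ((qMeas W).prod (qMeas W)) :=
    (integrable_autKernel_mul_prod W f hv).bdd_mul (c := C)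
      (Complex.continuous_conj.comp_aestronglyMeasurable
        (Measurable.aestronglyMeasurable (hφ.comp measurable_fst)))
      (Eventually.of_forall fun z => by rw [RCLike.norm_conj]; exact hC z.1)
  simp only [opPt, ← integral_const_mul, ← integral_conj, ← integral_mul_const]
  rw [integral_integral_swap (f := fun s t => conj (φ s) * (autKernel f s t * v t)) hint]
  refine integral_congr_ae (Eventually.of_forall fun t =>
    integral_congr_ae (Eventually.of_forall fun s => ?_))
  simp only [map_mul, autKernel_adjFun, Complex.conj_conj]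
  ring

omit [IsTotallyComplex F] in
/-- On bounded invariant functions the operator is the unfolded one. -/
theorem opPt_eq_integral_kernel (W : QuotientWeight U) (f : TestFun U) {φ : Spc U → ℂ}
    (hφ : Measurable φ) (hinv : IsInvariantFn φ) {C : ℝ} (hC : ∀ s, ‖φ s‖ ≤ C) (s : Spc U) :
    opPt W f φ s = ∫ t, kernel f s t * φ t ∂volSpc U :=
  Kernel.integral_autKernel_mul W f s hφ hinv fun _ _ _ _ _ _ => ⟨C, fun t _ => hC t⟩

omit [IsTotallyComplex F] in
/-- Invariant functions, continuous in the infinite part and equal almost everywhere on the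
quotient, are equal. -/
theorem eq_of_ae_qMeas (W : QuotientWeight U) {φ ψ : Spc U → ℂ} (hφ : IsInvariantFn φ)
    (hψ : IsInvariantFn ψ) (cφ : ∀ ω, Continuous fun p : Hyp F => φ (ω, p))
    (cψ : ∀ ω, Continuous fun p : Hyp F => ψ (ω, p)) (h : φ =ᵐ[qMeas W] ψ) : φ = ψ := by
  have hw : ∀ᵐ s ∂volSpc U, (W.w s : ℝ≥0∞) ≠ 0 → φ s = ψ s :=
    (ae_withDensity_iff (measurable_coe_nnreal_ennreal.comp W.measurable)).mp h
  have hall : ∀ᵐ s ∂volSpc U, ∀ γ : PGLF F, (W.w (γ • s) : ℝ≥0∞) ≠ 0 → φ (γ • s) = ψ (γ • s) :=
    ae_all_iff.mpr fun γ =>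
      (Kernel.measurePreserving_pgl_smul U γ).quasiMeasurePreserving.ae hw
  have hvol : ∀ᵐ s ∂volSpc U, φ s = ψ s := by
    filter_upwards [hall, W.sum_eq] with s h1 h2
    obtain ⟨γ, hγ⟩ : ∃ γ : PGLF F, (W.w (γ • s) : ℝ≥0∞) ≠ 0 := by
      by_contra hne
      push Not at hne
      simp [hne] at h2
    have := h1 γ hγ
    rwa [hφ, hψ] at this
  have hslice := Measure.ae_ae_of_ae_prod hvol
  rw [ae_iff, Measure.count_eq_zero_iff] at hslice
  funext s
  obtain ⟨ω, p⟩ := s
  have hω : ∀ᵐ q ∂(Measure.pi fun _ : InfinitePlace F => H3.vol), φ (ω, q) = ψ (ω, q) := by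
    by_contra hne
    exact Set.eq_empty_iff_forall_notMem.mp hslice ω hne
  exact congrFun (((cφ ω).ae_eq_iff_eq _ (cψ ω)).mp hω) p

omit [IsTotallyComplex F] in
theorem isInvariantFn_onSpc {φ : Gf F → Hyp F → ℂ} (hφ : IsAutomorphic U φ) :
    IsInvariantFn (onSpc U φ) := fun γ s => onSpc_smul hφ γ s

end Fermat.Agent.ResidualThree.Spectral
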