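import Fermat.Agent.ResidualThree.CubicDescent.Spectral.GoodFun
import Fermat.Agent.ResidualThree.CubicDescent.Spectral.L1Op
import Fermat.Agent.ResidualThree.Kernel.Bounded
import Fermat.Agent.ResidualThree.Kernel.Diag
import Fermat.Agent.ResidualThree.Kernel.Spectral

/-!
# The joint eigenbasis of the good algebra

For a self-adjoint good test function `f₀` killing constant terms there is a Hilbert basis of the
quotient; on the part where `f₀` does not vanish it consists of bounded cuspidal automorphic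
functions which are eigenfunctions of every good monomial.
-/

noncomputable section

open IsDedekindDomain NumberField MeasureTheory Filter Topology
open scoped ComplexConjugate InnerProductSpace

namespace Fermat.Agent.ResidualThree.Spectral

variable {F : Type} [Field F] [NumberField F] [IsTotallyComplex F] {U : Level F}

open Kernel (qMeas kerL2 IsHS opK)

theorem isHS_of_killsConstant (W : QuotientWeight U) {f : TestFun U} (hf : KillsConstant f) :
    IsHS W f :=
  Kernel.memLp_autKernel W f hf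

theorem isHS_convFun (W : QuotientWeight U) {f : TestFun U} (hf : KillsConstant f)
    (g : TestFun U) : IsHS W (convFun f g) :=
  Kernel.memLp_of_hasCuspBound W _
    (Kernel.HasCuspBound.convFun (Kernel.hasCuspBound_of_killsConstant hf) g)

omit [IsTotallyComplex F] in
theorem kerL2_congr {W : QuotientWeight U} {f g : TestFun U} (hf : IsHS W f) (hg : IsHS W g)
    (h : ∀ s t, autKernel f s t = autKernel g s t) : kerL2 hf = kerL2 hg :=
  Lp.ext ((Kernel.coeFn_kerL2 hf).trans (Filter.EventuallyEq.trans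
    (g := fun z : Spc U × Spc U => autKernel g z.1 z.2) (Eventually.of_forall fun z => h z.1 z.2)
    (Kernel.coeFn_kerL2 hg).symm))

omit [IsTotallyComplex F] in
theorem coeFn_opK_eq_opPt {W : QuotientWeight U} {f : TestFun U} (h : IsHS W f)
    (v : Lp ℂ 2 (qMeas W)) : (opK (kerL2 h) v : Spc U → ℂ) =ᵐ[qMeas W] opPt W f v :=
  Kernel.coeFn_opK_kerL2 h v

omit [IsTotallyComplex F] in
theorem measurable_onSpc_bounded {φ : Gf F → Hyp F → ℂ} (hφ : IsAutomorphic U φ)
    (hb : IsBoundedFn φ) :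
    Measurable (onSpc U φ) ∧ ∃ C, ∀ s, ‖onSpc U φ s‖ ≤ C := by
  obtain ⟨C, hC⟩ := hb
  exact ⟨measurable_onSpc hφ, C, fun s => hC _ _⟩

omit [IsTotallyComplex F] in
/-- The action of a monomial is the operator of its kernel. -/
theorem opPt_singleton (W : QuotientWeight U) (a : TestMonomial U) {φ : Gf F → Hyp F → ℂ}
    (hφ : IsAutomorphic U φ) (hb : IsBoundedFn φ) (x : Gf F) (p : Hyp F) :
    opPt W [a] (onSpc U φ) ((x : Ωf U), p) = a.act φ x p := by
  obtain ⟨hm, C, hC⟩ := measurable_onSpc_bounded hφ hb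
  rw [opPt_eq_integral_kernel W [a] hm (isInvariantFn_onSpc hφ) hC, TestMonomial.act]
  refine integral_congr_ae (Eventually.of_forall fun t => ?_)
  simp only [kernel_cons, kernel_nil, add_zero, onSpc]

omit [IsTotallyComplex F] in
theorem opPt_singleton_onSpc (W : QuotientWeight U) (a : TestMonomial U) {φ : Gf F → Hyp F → ℂ}
    (hφ : IsAutomorphic U φ) (hb : IsBoundedFn φ) :
    opPt W [a] (onSpc U φ) = onSpc U (a.act φ) := by
  funext s
  rw [onSpc, ← opPt_singleton W a hφ hb, QuotientGroup.out_eq']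

/-- A joint eigenbasis: real eigenvalues `μ` of `f₀`, multipliers of the good monomials, and
eigenfunctions for the non-zero `μ`. -/
theorem exists_jointEigenbasis {Bad : Finset (FPlace F)} (hU : ∀ v ∉ Bad, U.J v = maxSubgroup v)
    (W : QuotientWeight U) {f₀ : TestFun U} (hK : KillsConstant f₀)
    (hgood : IsGoodFun Bad f₀) (hsa : ∀ s t, kernel (adjFun f₀) s t = kernel f₀ s t) :
    ∃ (κ : Type) (b : HilbertBasis κ ℂ (Lp ℂ 2 (qMeas W))) (μ : κ → ℝ)
      (φ : κ → Gf F → Hyp F → ℂ) (c : κ → TestMonomial U → ℂ),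
      (∀ j, opK (kerL2 (isHS_of_killsConstant W hK)) (b j) = (μ j : ℂ) • b j) ∧
      (∀ j a, a.IsGood Bad →
        opK (kerL2 (isHS_convFun W hK [a])) (b j) = ((μ j : ℂ) * c j a) • b j) ∧
      ∀ j, μ j ≠ 0 → IsAutomorphic U (φ j) ∧ IsCuspidal (φ j) ∧ IsBoundedFn (φ j) ∧
        (b j : Spc U → ℂ) =ᵐ[qMeas W] onSpc U (φ j) ∧
        (∀ s, opPt W f₀ (onSpc U (φ j)) s = (μ j : ℂ) * onSpc U (φ j) s) ∧
        ∀ a, a.IsGood Bad → (∀ x p, a.act (φ j) x p = c j a * φ j x p) ∧
          c j a.adj = conj (c j a) := by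
  classical
  let ι := {f : TestFun U // IsGoodFun Bad f ∧ IsHS W f}
  obtain ⟨κ, b, χ, hχ⟩ := Kernel.exists_eigenbasis_kernels (fun i : ι => kerL2 i.2.2)
    (fun i j => Kernel.commute_opK_kerL2 i.2.2 j.2.2 (i.2.1.autKernel_comm hU j.2.1))
    (fun i => ⟨⟨adjFun i.1, i.2.1.adj, i.2.2.adjFun⟩, (Kernel.adjK_kerL2 i.2.2).symm⟩)
  set h₀ := isHS_of_killsConstant W hK
  set i₀ : ι := ⟨f₀, hgood, h₀⟩
  have hreal : ∀ j, conj (χ j i₀) = χ j i₀ := fun j => by
    have hk : kerL2 h₀.adjFun = kerL2 h₀ := kerL2_congr _ _ fun s t => tsum_congr fun γ => hsa s _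
    have h1 := Kernel.adjoint_eigen b (fun j => hχ j i₀) j
    rw [← Kernel.opK_adjK, Kernel.adjK_kerL2, hk, hχ j i₀] at h1
    exact (smul_left_injective ℂ (b.orthonormal.ne_zero j) h1).symm
  set μ : κ → ℝ := fun j => (χ j i₀).re
  have hμ : ∀ j, (μ j : ℂ) = χ j i₀ := fun j => Complex.conj_eq_iff_re.mp (hreal j)
  have hb : ∀ j, Integrable (b j : Spc U → ℂ) (qMeas W) := fun j => Kernel.integrable_lp W _
  have hE : ∀ j, opPt W f₀ (b j) =ᵐ[qMeas W] fun s => (μ j : ℂ) * (b j : Spc U → ℂ) s := fun j => by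
    filter_upwards [coeFn_opK_eq_opPt h₀ (b j), Lp.coeFn_smul (χ j i₀) (b j)] with s h1 h2
    rw [← h1, hχ j i₀, h2, Pi.smul_apply, smul_eq_mul, hμ]
  set φ : κ → Gf F → Hyp F → ℂ := fun j =>
    if hj : μ j = 0 then 0 else (Kernel.exists_eigenFn hK h₀
      (show (μ j : ℂ) ≠ 0 by simpa using hj) (by rw [hμ]; exact hχ j i₀)).choose
  have hφ : ∀ j, μ j ≠ 0 → IsAutomorphic U (φ j) ∧ IsCuspidal (φ j) ∧ IsBoundedFn (φ j) ∧
      (b j : Spc U → ℂ) =ᵐ[qMeas W] onSpc U (φ j) ∧
      ∀ s, opPt W f₀ (onSpc U (φ j)) s = (μ j : ℂ) * onSpc U (φ j) s := fun j hj => by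
    have h := (Kernel.exists_eigenFn hK h₀ (show (μ j : ℂ) ≠ 0 by simpa using hj)
      (by rw [hμ]; exact hχ j i₀)).choose_spec
    simp only [φ, dif_neg hj]
    refine ⟨h.1, h.2.1, h.2.2.1, h.2.2.2.1, fun s => ?_⟩
    obtain ⟨hm, C, hC⟩ := measurable_onSpc_bounded h.1 h.2.2.1
    rw [opPt_eq_integral_kernel W f₀ hm (isInvariantFn_onSpc h.1) hC, h.2.2.2.2 s]
  let fa : ∀ a : TestMonomial U, a.IsGood Bad → ι := fun a ha =>
    ⟨convFun f₀ [a], hgood.conv (isGoodFun_singleton ha), isHS_convFun W hK [a]⟩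
  set c : κ → TestMonomial U → ℂ := fun j a =>
    if ha : a.IsGood Bad then (if μ j = 0 then 0 else χ j (fa a ha) / (μ j : ℂ)) else 0
  have hswap : ∀ j a, a.IsGood Bad →
      (opK (kerL2 (isHS_convFun W hK [a])) (b j) : Spc U → ℂ) =ᵐ[qMeas W]
        opPt W [a] (opPt W f₀ (b j)) := fun j a ha => by
    refine (coeFn_opK_eq_opPt _ _).trans (Eventually.of_forall fun s => ?_)
    rw [opPt_congr_kernel W (fun s t => (hgood.autKernel_comm hU (isGoodFun_singleton ha) s t)),
      opPt_convFun W [a] f₀ (hb j)]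
  have hzero : ∀ j a (ha : a.IsGood Bad), μ j = 0 → χ j (fa a ha) = 0 := fun j a ha hj => by
    have h1 : (opK (kerL2 (fa a ha).2.2) (b j) : Spc U → ℂ) =ᵐ[qMeas W] fun _ => 0 := by
      refine (hswap j a ha).trans (Eventually.of_forall fun s => ?_)
      rw [opPt_congr_ae W [a] (v' := fun _ => 0) ((hE j).trans (Eventually.of_forall fun s => by
        simp [hj])), opPt_zero]
    rw [hχ j (fa a ha)] at h1
    have h2 : χ j (fa a ha) • b j = 0 :=
      (Lp.eq_zero_iff_ae_eq_zero).mpr h1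
    exact (smul_eq_zero.mp h2).resolve_right (b.orthonormal.ne_zero j)
  refine ⟨κ, b, μ, φ, c, fun j => by rw [hμ]; exact hχ j i₀, fun j a ha => ?_, fun j hj => ?_⟩
  · rw [show opK (kerL2 (isHS_convFun W hK [a])) (b j) = _ from hχ j (fa a ha)]
    simp only [c, dif_pos ha]
    split_ifs with hj
    · rw [hzero j a ha hj, mul_zero]
    · rw [mul_div_cancel₀ _ (show (μ j : ℂ) ≠ 0 by simpa using hj)]
  obtain ⟨hA, hC, hB, hae, heig⟩ := hφ j hj
  have hμ' : (μ j : ℂ) ≠ 0 := by simpa using hj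
  obtain ⟨hm, C, hCb⟩ := measurable_onSpc_bounded hA hB
  have hi : Integrable (onSpc U (φ j)) (qMeas W) := integrable_of_bounded W hm hCb
  have key : ∀ a, a.IsGood Bad →
      opPt W [a] (onSpc U (φ j)) = fun s => c j a * onSpc U (φ j) s := fun a ha => by
    refine eq_of_ae_qMeas W (isInvariantFn_opPt W _ _)
      (fun γ s => by rw [isInvariantFn_onSpc hA γ s]) (continuous_opPt W _ hi)
      (fun ω => continuous_const.mul
        (show Continuous fun p : Hyp F => φ j ω.out p from hA.continuous _)) ?_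
    have h1 := hswap j a ha
    rw [show opK (kerL2 (isHS_convFun W hK [a])) (b j) = _ from hχ j (fa a ha)] at h1
    filter_upwards [h1, Lp.coeFn_smul (χ j (fa a ha)) (b j), hae] with s h1 h2 h3
    rw [h2, Pi.smul_apply, smul_eq_mul, opPt_congr_ae W [a]
      (((hE j).trans (hae.fun_comp fun z => (μ j : ℂ) * z))), Function.comp_def,
      opPt_smul] at h1
    simp only [c, dif_pos ha, if_neg hj]
    rw [← h3, div_mul_eq_mul_div, h1, mul_div_cancel_left₀ _ hμ']
  refine ⟨hA, hC, hB, hae, heig, fun a ha => ⟨fun x p => ?_, ?_⟩⟩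
  · rw [← opPt_singleton W a hA hB, key a ha]
    simp only [onSpc_mk hA]
  · have h1 := integral_conj_mul_opPt W [a] hm hCb hi
    have hn : ∫ s, conj (onSpc U (φ j) s) * onSpc U (φ j) s ∂qMeas W = 1 := by
      have e : ⟪b j, b j⟫_ℂ = 1 := by
        rw [inner_self_eq_norm_sq_to_K, b.orthonormal.1 j]; simp
      rw [← e, L2.inner_def]
      refine integral_congr_ae (hae.mono fun s hs => ?_)
      simp only [RCLike.inner_apply, hs]
      ring
    have e2 : adjFun [a] = [a.adj] := rfl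
    rw [e2, key a ha, key a.adj ha.adj] at h1
    simp only [map_mul, mul_assoc, mul_left_comm (conj _) (c j a), integral_const_mul, hn,
      mul_one] at h1
    rw [h1, Complex.conj_conj]

end Fermat.Agent.ResidualThree.Spectral
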