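import Fermat.Agent.ResidualThree.CubicDescent.Spectral.ArchOp
import Fermat.Agent.ResidualThree.CubicDescent.Spectral.Datum
import Fermat.Agent.ResidualThree.CubicDescent.SpectralStatement
import Fermat.Agent.ResidualThree.Kernel.Petersson
import Fermat.Agent.ResidualThree.Spherical.Characters

/-!
# A joint eigenfunction of the good algebra has a system of eigenvalues

A bounded automorphic joint eigenfunction determines real bounded eigenvalues at the good places
and admissible parameters at the infinite places, through which every datum acts.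
-/

noncomputable section

open IsDedekindDomain NumberField MeasureTheory Filter Topology Set
open scoped WithZero ComplexConjugate

namespace Fermat.Agent.ResidualThree

variable {F : Type} [Field F] [NumberField F] {U : Level F} {Bad : Finset (FPlace F)}

theorem norm_le_of_scaled_bound {α : Type*} {f : α → ℂ} (hb : ∃ C, ∀ a, ‖f a‖ ≤ C)
    (hne : ∃ a, f a ≠ 0) {z : ℂ} {K : ℝ}
    (h : ∀ C, (∀ a, ‖f a‖ ≤ C) → ∀ a, ‖z * f a‖ ≤ K * C) : ‖z‖ ≤ K := by
  obtain ⟨a₀, ha₀⟩ := hne
  have : Nonempty α := ⟨a₀⟩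
  obtain ⟨C₀, hC₀⟩ := hb
  have hbdd : BddAbove (Set.range fun a => ‖f a‖) := ⟨C₀, by rintro _ ⟨a, rfl⟩; exact hC₀ a⟩
  set M := ⨆ a, ‖f a‖
  have hM : ∀ a, ‖f a‖ ≤ M := le_ciSup hbdd
  have hM0 : 0 < M := (norm_pos_iff.mpr ha₀).trans_le (hM a₀)
  have h1 : ∀ a, ‖z‖ * ‖f a‖ ≤ K * M := fun a => norm_mul z (f a) ▸ h M hM a
  rcases (norm_nonneg z).eq_or_lt with hz | hz
  · rw [← hz]
    have h2 := h1 a₀
    rw [← hz, zero_mul] at h2
    exact nonneg_of_mul_nonneg_left h2 hM0
  · refine le_of_mul_le_mul_right ?_ hM0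
    rw [mul_comm, ← le_div_iff₀ hz]
    refine ciSup_le fun a => ?_
    rw [le_div_iff₀ hz, mul_comm]
    exact h1 a

/-- An eigenvalue of a bounded function for the sum over the neighbours is at most their number. -/
theorem norm_heckeEigen_le {φ : Gf F → Hyp F → ℂ} (hB : ∃ C, ∀ x p, ‖φ x p‖ ≤ C)
    (hne : ∃ x p, φ x p ≠ 0) {v : FPlace F} {z : ℂ}
    (hz : ∀ x p, heckeOp v (Finsupp.single 1 1) φ x p = z * φ x p) :
    ‖z‖ ≤ (Ideal.absNorm v.asIdeal : ℝ) + 1 := by
  obtain ⟨Cφ, hCφ⟩ := hB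
  obtain ⟨x₀, p₀, hφ₀⟩ := hne
  refine norm_le_of_scaled_bound (f := fun a : Gf F × Hyp F => φ a.1 a.2)
    ⟨Cφ, fun a => hCφ a.1 a.2⟩ ⟨(x₀, p₀), hφ₀⟩ fun M hM a => ?_
  rw [← hz, heckeOp_eq_sum]
  refine (norm_sum_le_of_le _ fun u _ => hM (_, a.2)).trans (le_of_eq ?_)
  rw [Finset.sum_const, nsmul_eq_mul,
    show baseSphere v 1 = (placeTree v).nbhd (baseVert v) from Finset.ext fun y => by
      rw [mem_baseSphere, (placeTree v).mem_nbhd],
    (placeTree v).card_nbhd']
  push_cast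
  ring

/-- If `a P = b Q` and `a² P = b² Q` with both sides non-zero, then `P = Q`. -/
theorem eq_of_mul_eq_of_sq_mul_eq {R : Type*} [CommRing R] [IsDomain R] {a b P Q : R}
    (h0 : b * Q ≠ 0) (h1 : a * P = b * Q) (h2 : a * a * P = b * b * Q) : P = Q := by
  have ha : a * P ≠ 0 := h1 ▸ h0
  have hab : a = b := sub_eq_zero.mp <| (mul_eq_zero.mp
    (show (a - b) * (a * P) = 0 by linear_combination h2 - b * h1)).resolve_right ha
  subst hab
  exact mul_left_cancel₀ (left_ne_zero_of_mul h0) h1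

open Classical in
/-- Multiplicative functionals at the infinite places whose product commutes with conjugation do so
one by one, if none of them vanishes. -/
theorem conj_of_conj_prod {χ : InfinitePlace F → (ℝ → ℂ) → ℂ} {g₀ : InfinitePlace F → ℝ → ℂ}
    (hg₀ : ∀ w, IsSphTest (g₀ w)) (hχ₀ : ∀ w, χ w (g₀ w) ≠ 0)
    (hmul : ∀ w g h, IsSphTest g → IsSphTest h → χ w (convR g h) = χ w g * χ w h)
    (hconj : ∀ g : InfinitePlace F → ℝ → ℂ, (∀ w, IsSphTest (g w)) →
      ∏ w, χ w (fun s => conj (g w s)) = conj (∏ w, χ w (g w)))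
    (w : InfinitePlace F) : ∀ g, IsSphTest g → χ w (fun s => conj (g s)) = conj (χ w g) := by
  set gc : InfinitePlace F → ℝ → ℂ := fun v => fun s => conj (g₀ v s)
  set P := ∏ v ∈ Finset.univ.erase w, χ v (gc v)
  set Q := conj (∏ v ∈ Finset.univ.erase w, χ v (g₀ v))
  have hrel : ∀ g, IsSphTest g → χ w (fun s => conj (g s)) * P = conj (χ w g) * Q := by
    intro g hg
    have hgu : ∀ v, IsSphTest (Function.update g₀ w g v) := fun v => by
      rcases eq_or_ne v w with rfl | hv
      · rwa [Function.update_self]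
      · rw [Function.update_of_ne hv]; exact hg₀ v
    have h := hconj _ hgu
    rw [map_prod, ← Finset.mul_prod_erase _ _ (Finset.mem_univ w),
      ← Finset.mul_prod_erase (s := Finset.univ) _ (Finset.mem_univ w)] at h
    simp only [Function.update_self] at h
    simp only [P, Q, gc, map_prod]
    rw [Finset.prod_congr rfl fun v hv =>
        show χ v (fun s => conj (g₀ v s)) = χ v (fun s => conj (Function.update g₀ w g v s)) by
          rw [Function.update_of_ne (Finset.ne_of_mem_erase hv)],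
      Finset.prod_congr rfl fun v hv =>
        show conj (χ v (g₀ v)) = conj (χ v (Function.update g₀ w g v)) by
          rw [Function.update_of_ne (Finset.ne_of_mem_erase hv)]]
    exact h
  have hQ : Q ≠ 0 := by
    simp only [Q, ne_eq, map_eq_zero]
    exact Finset.prod_ne_zero_iff.mpr fun v _ => hχ₀ v
  -- the ratio is one by multiplicativity
  have h2 := hrel _ ((hg₀ w).conv (hg₀ w))
  have e : (fun s => conj (convR (g₀ w) (g₀ w) s)) = convR (gc w) (gc w) := by
    funext s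
    simp only [convR, ← integral_conj, map_mul, gc]
  rw [e, hmul w _ _ (hg₀ w).conj (hg₀ w).conj, hmul w _ _ (hg₀ w) (hg₀ w), map_mul] at h2
  have hPQ : P = Q := eq_of_mul_eq_of_sq_mul_eq
    (mul_ne_zero ((map_ne_zero _).mpr (hχ₀ w)) hQ) (hrel _ (hg₀ w)) h2
  intro g hg
  have := hrel g hg
  rw [hPQ] at this
  exact mul_right_cancel₀ hQ this

/-- The eigenvalues of the operators at an infinite place are multiplicative. -/
theorem placeOp_char_mul {φ : Gf F → Hyp F → ℂ} (hA : IsAutomorphic U φ)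
    {x₀ : Gf F} {p₀ : Hyp F} (hφ₀ : φ x₀ p₀ ≠ 0) {w : InfinitePlace F} {χ : (ℝ → ℂ) → ℂ}
    (hop : ∀ h, IsSphTest h → ∀ x p, placeOp w (sphKernel h) φ x p = χ h * φ x p) :
    ∀ g h, IsSphTest g → IsSphTest h → χ (convR g h) = χ g * χ h := by
  intro g h hg hh
  refine mul_right_cancel₀ hφ₀ ?_
  rw [← hop _ (hg.conv hh), placeOp_congr (sphKernel_conv hg hh),
    ← placeOp_placeOp (isKernel_sphKernel hg) (isKernel_sphKernel hh) (hA.continuous x₀),
    show placeOp w (sphKernel h) φ = fun x p => χ h * φ x p from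
      funext fun x => funext fun p => hop h hh x p,
    placeOp_const_smul, hop g hg]
  ring

/-- The character of a bounded eigenfunction of the operators at an infinite place, if it commutes
with conjugation and is not zero, is given by an admissible parameter. -/
theorem exists_sphParam_of_eigen {φ : Gf F → Hyp F → ℂ} (hA : IsAutomorphic U φ)
    (hB : ∃ C, ∀ x p, ‖φ x p‖ ≤ C) {x₀ : Gf F} {p₀ : Hyp F} (hφ₀ : φ x₀ p₀ ≠ 0)
    {w : InfinitePlace F} {χ : (ℝ → ℂ) → ℂ}
    (hop : ∀ h, IsSphTest h → ∀ x p, placeOp w (sphKernel h) φ x p = χ h * φ x p)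
    {g₀ : ℝ → ℂ} (hg₀ : IsSphTest g₀) (hχ₀ : χ g₀ ≠ 0)
    (hstar : ∀ g, IsSphTest g → χ (fun s => conj (g s)) = conj (χ g)) :
    ∃ l : ℂ, IsSphParam l ∧ ∀ g, IsSphTest g → χ g = coshTransform g l := by
  obtain ⟨Cφ, hCφ⟩ := hB
  have cancel : ∀ {a b : ℂ}, (∀ x p, a * φ x p = b * φ x p) → a = b := fun {a b} h =>
    mul_right_cancel₀ hφ₀ (h x₀ p₀)
  have hadd : ∀ g h, IsSphTest g → IsSphTest h → χ (fun s => g s + h s) = χ g + χ h :=
    fun g h hg hh => cancel fun x p => by
      rw [← hop _ (hg.add hh), add_mul, ← hop g hg, ← hop h hh,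
        ← placeOp_add_kernel (isKernel_sphKernel hg) (isKernel_sphKernel hh) (hA.continuous x),
        placeOp_congr (sphKernel_add hg hh)]
  have hsmul : ∀ (a : ℂ) g, IsSphTest g → χ (fun s => a * g s) = a * χ g :=
    fun a g hg => cancel fun x p => by
      rw [← hop _ (hg.smul a), mul_assoc, ← hop g hg, ← placeOp_smul_kernel,
        placeOp_congr (sphKernel_smul hg a)]
  have hmul := placeOp_char_mul hA hφ₀ hop
  refine exists_sphParam_of_char hadd hsmul hmul hstar ⟨_, hg₀, hχ₀⟩ ?_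
  obtain ⟨C, hC⟩ := exists_mass_conv_le hg₀
  refine ⟨C / ‖χ g₀‖, fun g hg => ?_⟩
  rw [div_mul_eq_mul_div, le_div_iff₀ (norm_pos_iff.mpr hχ₀), ← norm_mul, ← hmul _ _ hg hg₀]
  refine (norm_le_of_scaled_bound (f := fun a : Gf F × Hyp F => φ a.1 a.2)
    ⟨Cφ, fun a => hCφ a.1 a.2⟩ ⟨(x₀, p₀), hφ₀⟩
    (K := ∫ q, ‖sphKernel (convR g g₀) (H3.coshDist H3.base q)‖ ∂H3.vol)
    fun M hM a => ?_).trans (hC g hg)
  rw [← hop _ (hg.conv hg₀), mul_comm]
  exact norm_placeOp_le (isKernel_sphKernel (hg.conv hg₀)) (fun p => hM (a.1, p)) a.2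

variable (hU : ∀ v ∉ Bad, U.J v = maxSubgroup v)
include hU

/-- The action of a datum: the finite part after the product kernel. -/
theorem GoodDatum.act_eq_finSum (d : GoodDatum F) {φ : Gf F → Hyp F → ℂ} (hA : IsAutomorphic U φ)
    (x : Gf F) (p : Hyp F) :
    (d.mono hU).act φ x p = d.finSum hU (archInt (fun w => sphKernel (d.g w)) φ) x p :=
  (d.mono hU).act_eq_sum hA x p

open Classical in
/-- A datum with the sum over the neighbours at `v` and units elsewhere acts as that sum. -/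
theorem GoodDatum.finSum_eq_heckeOp {ψ : Gf F → Hyp F → ℂ}
    (hr : ∀ x j : Gf F, j ∈ U.group → ψ (x * j) = ψ x) {d : GoodDatum F} {v : FPlace F}
    (hv : v ∉ Bad) (hdv : d.loc v = Finsupp.single 1 1)
    (hd : ∀ z ≠ v, d.loc z = Finsupp.single 0 1) (x : Gf F) (p : Hyp F) :
    d.finSum hU ψ x p = heckeOp v (Finsupp.single 1 1) ψ x p := by
  rw [GoodDatum.finSum_step hU hr _ hv, heckeOp_eq_sum, hdv, Finsupp.sum_single_index (by simp),
    one_mul]
  refine Finset.sum_congr rfl fun u _ => GoodDatum.finSum_unit hU hr (fun z _ => ?_) _ _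
  simp only [GoodDatum.setLoc]
  rcases eq_or_ne z v with rfl | hzv
  · rw [Function.update_self]
  · rw [Function.update_of_ne hzv, hd z hzv]

open Classical in
/-- At a good place a joint eigenfunction has a real bounded eigenvalue. -/
theorem exists_heckeEigen {φ : Gf F → Hyp F → ℂ} (hA : IsAutomorphic U φ)
    (hB : ∃ C, ∀ x p, ‖φ x p‖ ≤ C) {x₀ : Gf F} {p₀ : Hyp F} (hφ₀ : φ x₀ p₀ ≠ 0)
    (c : GoodDatum F → ℂ) (hconj : ∀ d, c d.conjD = conj (c d))
    (hfs : ∀ (d : GoodDatum F) x p, c d * φ x p =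
      c (GoodDatum.ofArch d.g d.test) * d.finSum hU φ x p)
    {g₀ : InfinitePlace F → ℝ → ℂ} (hg₀ : ∀ w, IsSphTest (g₀ w))
    (hc₀ : c (GoodDatum.ofArch g₀ hg₀) ≠ 0) {v : FPlace F} (hv : v ∉ Bad) :
    ∃ a : ℂ, (a.im = 0 ∧ ‖a‖ ≤ Real.sqrt (Ideal.absNorm v.asIdeal) + 1) ∧
      HasEigenvalue v a φ := by
  have hr : ∀ x j : Gf F, j ∈ U.group → φ (x * j) = φ x := fun x j hj => hA.right x j hj
  set one : ℕ →₀ ℂ := Finsupp.single 1 1
  set c₀ := c (GoodDatum.ofArch g₀ hg₀)
  set cv := c ((GoodDatum.ofArch g₀ hg₀).setLoc v one) / c₀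
  have hheck : ∀ x p, heckeOp v one φ x p = cv * φ x p := fun x p => by
    simp only [cv]
    rw [div_mul_eq_mul_div, eq_div_iff hc₀, hfs, mul_comm]
    show c₀ * _ = c (GoodDatum.ofArch g₀ hg₀) * _
    congr 1
    exact (GoodDatum.finSum_eq_heckeOp hU hr hv (Function.update_self v _ _)
      (fun z hz => Function.update_of_ne hz _ _) x p).symm
  have hsq : (0 : ℝ) < Real.sqrt (Ideal.absNorm v.asIdeal) :=
    Real.sqrt_pos.mpr (Nat.cast_pos.mpr (Nat.pos_of_ne_zero (absNorm_fplace_ne_zero v)))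
  refine ⟨cv / (Real.sqrt (Ideal.absNorm v.asIdeal) : ℂ), ⟨?_, ?_⟩, ?_⟩
  · have hreal : conj cv = cv := by
      have h1 : ∀ x p, c (((GoodDatum.ofArch g₀ hg₀).setLoc v one).conjD) * φ x p =
          c (GoodDatum.ofArch g₀ hg₀).conjD * (cv * φ x p) := fun x p => by
        rw [hfs, ← hheck]
        congr 1
        · congr 1
          simp only [GoodDatum.ofArch, GoodDatum.conjD, GoodDatum.setLoc, Finsupp.mapRange_single,
            map_one]
        refine GoodDatum.finSum_eq_heckeOp hU hr hv ?_ (fun z hz => ?_) x p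
        · simp [GoodDatum.conjD, GoodDatum.setLoc, one]
        · simp [GoodDatum.conjD, GoodDatum.setLoc, GoodDatum.ofArch, Function.update_of_ne hz]
      have h2 := h1 x₀ p₀
      rw [← mul_assoc] at h2
      have h3 := mul_right_cancel₀ hφ₀ h2
      rw [hconj, hconj] at h3
      simp only [cv, map_div₀]
      rw [h3]
      exact mul_div_cancel_left₀ _ (by simpa using hc₀)
    rw [Complex.div_ofReal_im, Complex.conj_eq_iff_im.mp hreal, zero_div]
  · have hbound := norm_heckeEigen_le hB ⟨x₀, p₀, hφ₀⟩ hheck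
    rw [norm_div, Complex.norm_real, Real.norm_of_nonneg (Real.sqrt_nonneg _), div_le_iff₀ hsq]
    have h1 : (1 : ℝ) ≤ Real.sqrt (Ideal.absNorm v.asIdeal) := Real.one_le_sqrt.mpr
      (Nat.one_le_cast.mpr (Nat.pos_of_ne_zero (absNorm_fplace_ne_zero v)))
    nlinarith [Real.mul_self_sqrt (Nat.cast_nonneg (α := ℝ) (Ideal.absNorm v.asIdeal))]
  · funext x p
    rw [mul_div_cancel₀ _ (Complex.ofReal_ne_zero.mpr hsq.ne')]
    exact hheck x p

open Classical in
/-- A joint eigenfunction of the data has a system of eigenvalues. -/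
theorem exists_eigenSystem {φ : Gf F → Hyp F → ℂ} (hA : IsAutomorphic U φ) (hB : IsBoundedFn φ)
    (hne : ∃ x p, φ x p ≠ 0) (c : GoodDatum F → ℂ)
    (hact : ∀ d x p, (d.mono hU).act φ x p = c d * φ x p)
    (hconj : ∀ d, c d.conjD = conj (c d)) (hd : ∃ d, c d ≠ 0) :
    ∃ s : EigenSystem F, s.IsAdmissible ∧ (∀ d, c d = d.eval Bad s) ∧
      (∀ v ∉ Bad, HasEigenvalue v (s.a v) φ) ∧
      ∀ w h, IsSphTest h → ∀ x p,
        placeOp w (sphKernel h) φ x p = coshTransform h (s.l w) * φ x p := by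
  obtain ⟨x₀, p₀, hφ₀⟩ := hne
  have cancel : ∀ {a b : ℂ}, (∀ x p, a * φ x p = b * φ x p) → a = b := fun {a b} h =>
    mul_right_cancel₀ hφ₀ (h x₀ p₀)
  obtain ⟨Cφ, hCφ⟩ := hB
  have hr : ∀ x j : Gf F, j ∈ U.group → φ (x * j) = φ x := fun x j hj => hA.right x j hj
  have hrI : ∀ K, ∀ x j : Gf F,
      j ∈ U.group → archInt K φ (x * j) = archInt K φ x := fun K x j hj => by
    funext p
    simp only [archInt, hr x j hj]
  have hA1 : ∀ g (hg : ∀ w, IsSphTest (g w)) x p,
      archInt (fun w => sphKernel (g w)) φ x p = c (GoodDatum.ofArch g hg) * φ x p := by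
    intro g hg x p
    rw [← hact, GoodDatum.act_eq_finSum hU _ hA]
    exact ((GoodDatum.ofArch g hg).finSum_unit hU (hrI _) (fun v _ => rfl) x p).symm
  have hfs : ∀ (d : GoodDatum F) x p, c d * φ x p =
      c (GoodDatum.ofArch d.g d.test) * d.finSum hU φ x p := fun d x p => by
    rw [← hact, GoodDatum.act_eq_finSum hU _ hA, GoodDatum.finSum, GoodDatum.finSum,
      Finset.mul_sum]
    refine Finset.sum_congr rfl fun y _ => ?_
    rw [hA1 d.g d.test]
    ring
  obtain ⟨g₀, hg₀, hc₀⟩ : ∃ (g : InfinitePlace F → ℝ → ℂ) (hg : ∀ w, IsSphTest (g w)),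
      c (GoodDatum.ofArch g hg) ≠ 0 := by
    obtain ⟨d, hd⟩ := hd
    refine ⟨d.g, d.test, fun h0 => hd (cancel (b := 0) fun x p => ?_)⟩
    rw [hfs, h0, zero_mul, zero_mul]
  set c₀ := c (GoodDatum.ofArch g₀ hg₀)
  -- the characters at the infinite places
  have hupd : ∀ w h, IsSphTest h → ∀ v, IsSphTest (Function.update g₀ w (convR h (g₀ w)) v) :=
    fun w h hh v => by
      rcases eq_or_ne v w with rfl | hv
      · rw [Function.update_self]; exact hh.conv (hg₀ v)
      · rw [Function.update_of_ne hv]; exact hg₀ v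
  set χ : InfinitePlace F → (ℝ → ℂ) → ℂ := fun w h =>
    if hh : IsSphTest h then c (GoodDatum.ofArch _ (hupd w h hh)) / c₀ else 0
  have hop : ∀ w h, IsSphTest h → ∀ x p, placeOp w (sphKernel h) φ x p = χ w h * φ x p := by
    intro w h hh x p
    simp only [χ, dif_pos hh]
    rw [div_mul_eq_mul_div, eq_div_iff hc₀, ← hA1 _ (hupd w h hh), mul_comm,
      ← placeOp_const_smul,
      show (fun x p => c₀ * φ x p) = archInt (fun v => sphKernel (g₀ v)) φ from
        funext fun x => funext fun p => (hA1 g₀ hg₀ x p).symm,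
      placeOp_archInt (isKernel_sphKernel hh) (fun v => isKernel_sphKernel (hg₀ v))
        (hA.continuous x)]
    refine congrFun (congrFun (archInt_congr fun v => ?_) x) p
    rcases eq_or_ne v w with rfl | hv
    · rw [Function.update_self, Function.update_self]
      exact (sphKernel_conv hh (hg₀ v)).symm
    · rw [Function.update_of_ne hv, Function.update_of_ne hv]
      exact fun u _ => rfl
  have hprod : ∀ g (hg : ∀ w, IsSphTest (g w)),
      c (GoodDatum.ofArch g hg) = ∏ w, χ w (g w) := fun g hg => cancel fun x p => by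
    rw [← hA1 g hg]
    exact integral_archProd_eigen (fun w => (isKernel_sphKernel (hg w)).isPair) (fun w => χ w (g w))
      (hA.continuous x) (fun w q => hop w _ (hg w) x q) p
  have hχ₀ : ∀ w, χ w (g₀ w) ≠ 0 := fun w => by
    have h := hc₀
    rw [show c₀ = _ from hprod g₀ hg₀] at h
    exact Finset.prod_ne_zero_iff.mp h w (Finset.mem_univ w)
  have hmul : ∀ w g h, IsSphTest g → IsSphTest h → χ w (convR g h) = χ w g * χ w h :=
    fun w => placeOp_char_mul hA hφ₀ (hop w)
  have hstar := fun w => conj_of_conj_prod hg₀ hχ₀ hmul (fun g hg => by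
    rw [← hprod g hg, ← hconj, ← hprod _ fun v => (hg v).conj]
    congr 1
    simp only [GoodDatum.ofArch, GoodDatum.conjD, Finsupp.mapRange_single, map_one]) w
  have hparam : ∀ w, ∃ l : ℂ, IsSphParam l ∧ ∀ g, IsSphTest g → χ w g = coshTransform g l :=
    fun w => exists_sphParam_of_eigen hA ⟨Cφ, hCφ⟩ hφ₀ (hop w) (hg₀ w) (hχ₀ w) (hstar w)
  choose l hlp hl using hparam
  -- the eigenvalues at the finite places
  choose a ha hev using fun v (hv : v ∉ Bad) =>
    exists_heckeEigen hU hA ⟨Cφ, hCφ⟩ hφ₀ c hconj hfs hg₀ hc₀ hv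
  set a' : FPlace F → ℂ := fun v => if hv : v ∈ Bad then 0 else a v hv
  have hev' : ∀ v ∉ Bad, HasEigenvalue v (a' v) φ := fun v hv => by
    simp only [a', dif_neg hv]; exact hev v hv
  refine ⟨⟨a', l⟩, ⟨fun v => ?_, hlp⟩, fun d => cancel fun x p => ?_, hev',
    fun w h hh x p => by rw [hop w h hh, hl w h hh]⟩
  · simp only [a']
    split_ifs with hv
    · exact ⟨rfl, by rw [norm_zero]; positivity⟩
    · exact ha v hv
  · rw [hfs, hprod, GoodDatum.finSum_eigen hU hr
      (fun v hv => ⟨hA.sphericalAt (hU v hv), hev' v hv⟩) d, GoodDatum.eval]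
    simp only [hl _ _ (d.test _)]
    ring

end Fermat.Agent.ResidualThree
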