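import Fermat.Agent.ResidualThree.Automorphic.Irreducible
import Fermat.Agent.ResidualThree.CubicDescent.Spectral.Eigen

/-!
# Systems of parameter zero and forms of a level

The values of the data determine a system, data act on forms of a level through their values, and
an eigenfunction whose system has parameter zero is a form of the level.
-/

noncomputable section

open IsDedekindDomain NumberField MeasureTheory Filter Topology Set
open scoped WithZero ComplexConjugate

namespace Fermat.Agent.ResidualThree

variable {F : Type} [Field F] [NumberField F] {U : Level F} {Bad : Finset (FPlace F)}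

open Classical in
theorem GoodDatum.eval_ofArch (g : InfinitePlace F → ℝ → ℂ) (hg : ∀ w, IsSphTest (g w))
    (s : EigenSystem F) :
    (GoodDatum.ofArch g hg).eval Bad s = ∏ w, coshTransform (g w) (s.l w) := by
  rw [GoodDatum.eval, finprod_eq_one_of_forall_eq_one fun v => ?_, one_mul]
  · rfl
  · simp [GoodDatum.ofArch, sphEval_single_zero]

open Classical in
theorem GoodDatum.eval_congr_bad (d : GoodDatum F) {s s' : EigenSystem F}
    (ha : ∀ v ∉ Bad, s.a v = s'.a v) (hl : ∀ w, s.l w = s'.l w) :
    d.eval Bad s = d.eval Bad s' := by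
  simp only [GoodDatum.eval, hl]
  congr 1
  exact finprod_congr fun v => if_ctx_congr Iff.rfl (fun _ => rfl) fun hv => by rw [ha v hv]

theorem evalList_congr (E : List (GoodDatum F)) {s s' : EigenSystem F}
    (ha : ∀ v ∉ Bad, s.a v = s'.a v) (hl : ∀ w, s.l w = s'.l w) :
    evalList E Bad s = evalList E Bad s' := by
  simp only [evalList, fun d : GoodDatum F => d.eval_congr_bad (Bad := Bad) ha hl]

theorem evalList_ne_zero_exists {E : List (GoodDatum F)} {s : EigenSystem F}
    (h : evalList E Bad s ≠ 0) : ∃ d : GoodDatum F, d.eval Bad s ≠ 0 := by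
  by_contra hc
  push Not at hc
  refine h (List.sum_eq_zero fun x hx => ?_)
  obtain ⟨d, -, rfl⟩ := List.mem_map.mp hx
  exact hc d

/-- The values of the data determine a system. -/
theorem eq_of_eval_eq {s : EigenSystem F} {a₀ : FPlace F → ℂ}
    (h : ∀ d : GoodDatum F, d.eval Bad s = d.eval Bad ⟨a₀, 0⟩)
    (hne : ∃ d : GoodDatum F, d.eval Bad s ≠ 0) :
    (∀ v ∉ Bad, s.a v = a₀ v) ∧ ∀ w, s.l w = 0 := by
  classical
  obtain ⟨d, hd⟩ := hne
  set g := d.g
  have hP : ∏ w, coshTransform (g w) (s.l w) ≠ 0 := fun h0 => hd (by
    simp only [GoodDatum.eval]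
    rw [show (∏ w, coshTransform (d.g w) (s.l w)) = 0 from h0, mul_zero])
  have e := h (GoodDatum.ofArch g d.test)
  rw [GoodDatum.eval_ofArch, GoodDatum.eval_ofArch] at e
  refine ⟨fun v hv => ?_, fun w => ?_⟩
  · have hev : ∀ t : EigenSystem F,
        ((GoodDatum.ofArch g d.test).setLoc v (Finsupp.single 1 1)).eval Bad t =
          Tree.csqrtN (Ideal.absNorm v.asIdeal) * t.a v * ∏ w, coshTransform (g w) (t.l w) := by
      intro t
      rw [GoodDatum.eval, finprod_eq_single _ v fun u hu => ?_]
      · rw [if_neg hv]
        simp only [GoodDatum.setLoc, Function.update_self, sphEval, GoodDatum.ofArch]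
        rw [Finsupp.sum_single_index (by simp), one_mul, Tree.sphereEigen]
      · simp [GoodDatum.setLoc, GoodDatum.ofArch, Function.update_of_ne hu, sphEval_single_zero]
    have h1 := h ((GoodDatum.ofArch g d.test).setLoc v (Finsupp.single 1 1))
    rw [hev, hev, ← e] at h1
    refine mul_left_cancel₀ ?_ (mul_right_cancel₀ hP h1)
    rw [Tree.csqrtN, Complex.ofReal_ne_zero, Real.sqrt_ne_zero (Nat.cast_nonneg _),
      Nat.cast_ne_zero]
    exact absNorm_fplace_ne_zero v
  · set P := ∏ u ∈ Finset.univ.erase w, coshTransform (g u) (s.l u)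
    set Q := ∏ u ∈ Finset.univ.erase w, coshTransform (g u) 0
    have hrel : ∀ k, IsSphTest k → coshTransform k (s.l w) * P = coshTransform k 0 * Q := by
      intro k hk
      have hgu : ∀ v, IsSphTest (Function.update g w k v) := fun v => by
        rcases eq_or_ne v w with rfl | hv
        · rwa [Function.update_self]
        · rw [Function.update_of_ne hv]; exact d.test v
      have h1 := h (GoodDatum.ofArch _ hgu)
      rw [GoodDatum.eval_ofArch, GoodDatum.eval_ofArch,
        ← Finset.mul_prod_erase _ _ (Finset.mem_univ w),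
        ← Finset.mul_prod_erase _ _ (Finset.mem_univ w)] at h1
      simp only [Function.update_self, Pi.zero_apply] at h1
      simp only [P, Q]
      rw [Finset.prod_congr rfl fun v hv =>
          show coshTransform (g v) (s.l v) = coshTransform (Function.update g w k v) (s.l v) by
            rw [Function.update_of_ne (Finset.ne_of_mem_erase hv)],
        Finset.prod_congr rfl fun v hv =>
          show coshTransform (g v) 0 = coshTransform (Function.update g w k v) 0 by
            rw [Function.update_of_ne (Finset.ne_of_mem_erase hv)]]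
      exact h1
    rw [← Finset.mul_prod_erase _ _ (Finset.mem_univ w)] at hP
    obtain ⟨ha, hPne⟩ := mul_ne_zero_iff.mp hP
    have h1 := hrel _ (d.test w)
    have h2 := hrel _ ((d.test w).conv (d.test w))
    rw [coshTransform_conv (d.test w) (d.test w), coshTransform_conv (d.test w) (d.test w)] at h2
    have hPQ : P = Q :=
      eq_of_mul_eq_of_sq_mul_eq (h1 ▸ mul_ne_zero ha hPne) h1 h2
    have h0 := coshTransform_separates (l := s.l w) (m := 0) fun k hk =>
      mul_right_cancel₀ (b := P) hPne ((hrel k hk).trans (by rw [hPQ]))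
    simpa using h0

variable [IsTotallyComplex F] (hU : ∀ v ∉ Bad, U.J v = maxSubgroup v)
include hU

/-- Data act on forms of a level through their values. -/
theorem GoodDatum.act_levelForm (d : GoodDatum F) {a : FPlace F → ℂ} {ψ : Gf F → Hyp F → ℂ}
    (hψ : ψ ∈ levelForms Bad a U) (x : Gf F) (p : Hyp F) :
    (d.mono hU).act ψ x p = d.eval Bad ⟨a, 0⟩ * ψ x p := by
  obtain ⟨hE, hA⟩ := mem_levelForms.mp hψ
  rw [TestMonomial.act_eq_of_spectralZero _ hA hE.spectral,
    show ∑ y ∈ (d.mono hU).finite_support.toFinset, (d.mono hU).fin y.out * ψ (x * y.out) p =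
      d.finSum hU ψ x p from rfl,
    GoodDatum.finSum_eigen hU (fun x j hj => hA.right x j hj)
      (fun v hv => ⟨hA.sphericalAt (hU v hv), hE.eigen v (by simpa using hv)⟩) d, GoodDatum.eval]
  have e : (∏ w, sphZero ((d.mono hU).arch w)) = ∏ w, coshTransform (d.g w) 0 := by
    refine Finset.prod_congr rfl fun w _ => ?_
    rw [sphZero_eq_coshTransform]
    exact congrArg (fun g => coshTransform g 0) (abel_sphKernel (d.test w))
  rw [e]
  simp only [Pi.zero_apply]
  ring

/-- An eigenfunction of parameter zero is a form of its level. -/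
theorem mem_levelForms_of_system {φ : Gf F → Hyp F → ℂ} (hA : IsAutomorphic U φ)
    (hC : IsCuspidal φ) (hB : IsBoundedFn φ) {s : EigenSystem F} {a : FPlace F → ℂ}
    (ha : ∀ v ∉ Bad, HasEigenvalue v (a v) φ) (hl : ∀ w, s.l w = 0)
    (hop : ∀ w h, IsSphTest h → ∀ x p,
      placeOp w (sphKernel h) φ x p = coshTransform h (s.l w) * φ x p)
    (hne : ∃ d : GoodDatum F, d.eval Bad s ≠ 0) : φ ∈ levelForms Bad a U := by
  classical
  refine mem_levelForms.mpr ⟨⟨⟨U, hA, fun v hv => hU v (by simpa using hv)⟩, hC, ?_, hB,
    fun v hv => ha v (by simpa using hv)⟩, hA⟩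
  intro x w k hk hks p
  obtain ⟨d, hd⟩ := hne
  have hg : IsSphTest (d.g w) := d.test w
  have hP : coshTransform (d.g w) (s.l w) ≠ 0 := fun h0 => hd (by
    rw [GoodDatum.eval, Finset.prod_eq_zero (Finset.mem_univ w) h0, mul_zero])
  rw [hl w] at hP
  have hK : H3.IsKernel k := ⟨hk, hks⟩
  have hgk : IsSphTest (convR (abelTransform k) (d.g w)) := by
    refine ⟨?_, ?_, fun r => ?_⟩
    · rw [convR_eq_convolution]
      exact hg.compact.contDiff_convolution_right _ hK.continuous_abel.locallyIntegrable hg.smooth
    · rw [convR_eq_convolution]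
      exact hK.hasCompactSupport_abel.convolution _ hg.compact
    · simp only [convR]
      rw [← integral_neg_eq_self]
      refine integral_congr_ae (Eventually.of_forall fun t => ?_)
      simp only
      rw [H3.abelTransform_even, ← hg.even]
      ring_nf
  have hint : coshTransform (convR (abelTransform k) (d.g w)) 0 =
      sphZero k * coshTransform (d.g w) 0 := by
    simp only [coshTransform, zero_mul, Complex.cosh_zero, mul_one, sphZero, convR_eq_convolution]
    exact integral_convolution _
      (hK.continuous_abel.integrable_of_hasCompactSupport hK.hasCompactSupport_abel)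
      (hg.continuous.integrable_of_hasCompactSupport hg.compact)
  have h1 : placeOp w k (placeOp w (sphKernel (d.g w)) φ) x p =
      placeOp w (sphKernel (convR (abelTransform k) (d.g w))) φ x p := by
    rw [placeOp_placeOp hK (isKernel_sphKernel hg) (hA.continuous x)]
    refine congrFun (congrFun (placeOp_congr (sphKernel_eqOn_of_abel
      (hK.comp (isKernel_sphKernel hg)) hgk ?_).symm) x) p
    rw [abelTransform_compKernel hK (isKernel_sphKernel hg), abel_sphKernel hg]
  rw [show placeOp w (sphKernel (d.g w)) φ = fun x p => coshTransform (d.g w) 0 * φ x p from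
      funext fun x => funext fun p => by rw [hop w _ hg, hl w],
    placeOp_const_smul, hop w _ hgk, hl w, hint] at h1
  refine mul_left_cancel₀ hP ?_
  exact h1.trans (by ring)

end Fermat.Agent.ResidualThree
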