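import Fermat.Agent.ResidualThree.CubicDescent.Spectral.Basis
import Fermat.Agent.ResidualThree.CubicDescent.Spectral.Forms

/-!
# The eigenbasis with its systems of eigenvalues

Each eigenfunction on which the fixed good function does not vanish carries an admissible system;
those of parameter zero and given eigenvalues are a basis of the forms of the level.
-/

noncomputable section

open IsDedekindDomain NumberField MeasureTheory Filter Topology
open scoped WithZero ComplexConjugate InnerProductSpace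

namespace Fermat.Agent.ResidualThree

open Kernel (qMeas kerL2 IsHS opK)
open Spectral

variable {F : Type} [Field F] [NumberField F] [IsTotallyComplex F] {U : Level F}
  {Bad : Finset (FPlace F)}

theorem opPt_map_mono (hU : ∀ v ∉ Bad, U.J v = maxSubgroup v) (W : QuotientWeight U)
    {φ : Gf F → Hyp F → ℂ} (hA : IsAutomorphic U φ)
    (hB : IsBoundedFn φ) (c : GoodDatum F → ℂ)
    (hact : ∀ d x p, (d.mono hU).act φ x p = c d * φ x p) (E : List (GoodDatum F)) (s : Spc U) :
    opPt W (E.map fun d => d.mono hU) (onSpc U φ) s = (E.map c).sum * onSpc U φ s := by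
  obtain ⟨hm, C, hC⟩ := measurable_onSpc_bounded hA hB
  induction E with
  | nil => simp [opPt_nil]
  | cons d E ih =>
    rw [List.map_cons, opPt_cons W _ _ (integrable_of_bounded W hm hC), ih,
      opPt_singleton_onSpc W _ hA hB, List.map_cons, List.sum_cons, add_mul]
    congr 1
    exact hact d _ _

omit [IsTotallyComplex F] in
theorem inner_eq_integral {W : QuotientWeight U} {v w : Lp ℂ 2 (qMeas W)} {f g : Spc U → ℂ}
    (hv : (v : Spc U → ℂ) =ᵐ[qMeas W] f) (hw : (w : Spc U → ℂ) =ᵐ[qMeas W] g) :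
    ⟪v, w⟫_ℂ = ∫ s, conj (f s) * g s ∂qMeas W := by
  rw [L2.inner_def]
  refine integral_congr_ae ?_
  filter_upwards [hv, hw] with s h1 h2
  simp only [RCLike.inner_apply, h1, h2]
  ring

omit [IsTotallyComplex F] in
/-- If the basis consists of eigenvectors, the coefficient of an eigenvector at a basis element
vanishes unless the eigenvalues agree. -/
theorem eigen_mul_inner_eq {κ H : Type*} [NormedAddCommGroup H] [InnerProductSpace ℂ H]
    [CompleteSpace H] (b : HilbertBasis κ ℂ H) {A : H →L[ℂ] H} {χ : κ → ℂ}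
    (hb : ∀ j, A (b j) = χ j • b j) {r : ℂ} {v : H} (hr : A v = r • v) (j : κ) :
    χ j * ⟪b j, v⟫_ℂ = r * ⟪b j, v⟫_ℂ := by
  rw [← inner_smul_right (𝕜 := ℂ) (b j) v r, ← hr, ← ContinuousLinearMap.adjoint_inner_left,
    Kernel.adjoint_eigen b hb j, inner_smul_left, Complex.conj_conj]

omit [IsTotallyComplex F] in
/-- A function representing a non-zero class does not vanish. -/
theorem exists_apply_ne_zero {W : QuotientWeight U} {v : Lp ℂ 2 (qMeas W)} (hv : v ≠ 0)
    {φ : Gf F → Hyp F → ℂ} (h : (v : Spc U → ℂ) =ᵐ[qMeas W] onSpc U φ) :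
    ∃ x p, φ x p ≠ 0 := by
  by_contra hall
  push Not at hall
  refine hv ((Lp.eq_zero_iff_ae_eq_zero).mpr ?_)
  filter_upwards [h] with s hs
  rw [hs]
  exact hall _ _

/-- A joint eigenbasis of the good algebra with the systems of its nonzero part. -/
structure SpecData (hU : ∀ v ∉ Bad, U.J v = maxSubgroup v) (W : QuotientWeight U)
    (E : List (GoodDatum F))
    (hK : KillsConstant (E.map fun d => d.mono hU)) : Type 1 where
  /-- the index -/
  κ : Type
  /-- the basis -/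
  b : HilbertBasis κ ℂ (Lp ℂ 2 (qMeas W))
  /-- the eigenvalue of the combination -/
  μ : κ → ℝ
  /-- the eigenfunctions -/
  φ : κ → Gf F → Hyp F → ℂ
  /-- the multipliers of the data -/
  mult : κ → GoodDatum F → ℂ
  /-- the systems -/
  sys : {j // μ j ≠ 0} → EigenSystem F
  eigen : ∀ j, opK (kerL2 (isHS_of_killsConstant W hK)) (b j) = (μ j : ℂ) • b j
  eigen_mult : ∀ j (d : GoodDatum F),
    opK (kerL2 (isHS_convFun W hK [d.mono hU])) (b j) = ((μ j : ℂ) * mult j d) • b j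
  aut : ∀ j, μ j ≠ 0 → IsAutomorphic U (φ j)
  cusp : ∀ j, μ j ≠ 0 → IsCuspidal (φ j)
  bdd : ∀ j, μ j ≠ 0 → IsBoundedFn (φ j)
  ae : ∀ j, μ j ≠ 0 → (b j : Spc U → ℂ) =ᵐ[qMeas W] onSpc U (φ j)
  reproduce : ∀ j, μ j ≠ 0 → ∀ s,
    opPt W (E.map fun d => d.mono hU) (onSpc U (φ j)) s = (μ j : ℂ) * onSpc U (φ j) s
  adm : ∀ j, (sys j).IsAdmissible
  mult_eq : ∀ (j : {j // μ j ≠ 0}) (d : GoodDatum F), mult j.1 d = d.eval Bad (sys j)
  hecke : ∀ j, ∀ v ∉ Bad, HasEigenvalue v ((sys j).a v) (φ j.1)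
  radial : ∀ j w h, IsSphTest h → ∀ x p,
    placeOp w (sphKernel h) (φ j.1) x p = coshTransform h ((sys j).l w) * φ j.1 x p
  value : ∀ j : {j // μ j ≠ 0}, (μ j.1 : ℂ) = evalList E Bad (sys j)

/-- The eigenbasis exists. -/
theorem exists_specData (hU : ∀ v ∉ Bad, U.J v = maxSubgroup v) (W : QuotientWeight U)
    (E : List (GoodDatum F))
    (hK : KillsConstant (E.map fun d => d.mono hU))
    (hsa : ∀ s t, kernel (adjFun (E.map fun d => d.mono hU)) s t =
      kernel (E.map fun d => d.mono hU) s t) : Nonempty (SpecData hU W E hK) := by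
  classical
  set Em := E.map fun d => d.mono hU with hEm
  have hgood : IsGoodFun Bad Em := isGoodFun_map_mono E hU
  obtain ⟨κ₀, b, μ, φ, c, hμ, hc, hφ⟩ := exists_jointEigenbasis hU W hK hgood hsa
  -- values of the data on the eigenfunctions
  have hne : ∀ j, μ j ≠ 0 → ∃ x p, φ j x p ≠ 0 := fun j hj =>
    exists_apply_ne_zero (b.orthonormal.ne_zero j) (hφ j hj).2.2.2.1
  have hcd : ∀ j, μ j ≠ 0 →
      (∀ d : GoodDatum F, c j (d.conjD.mono hU) = conj (c j (d.mono hU))) ∧
        (μ j : ℂ) = (E.map fun d => c j (d.mono hU)).sum := by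
    intro j hj
    obtain ⟨hA, hC, hB, hae, heig, hgd⟩ := hφ j hj
    obtain ⟨x₀, p₀, h0⟩ := hne j hj
    refine ⟨fun d => ?_, ?_⟩
    · rw [← (hgd _ (d.mono_isGood hU)).2]
      refine mul_right_cancel₀ h0 ?_
      rw [← (hgd _ (d.conjD.mono_isGood hU)).1, ← (hgd _ (d.mono_isGood hU).adj).1,
        TestMonomial.act_congr_kernel (fun s t => d.kernel_conjD hU s t)]
    · have h := heig ((x₀ : Ωf U), p₀)
      rw [hEm, opPt_map_mono hU W hA hB (fun d => c j (d.mono hU))
        (fun d x p => (hgd _ (d.mono_isGood hU)).1 x p) E] at h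
      refine (mul_right_cancel₀ ?_ h).symm
      rwa [onSpc_mk hA]
  -- the systems
  have hsys : ∀ j : {j // μ j ≠ 0}, ∃ s : EigenSystem F, s.IsAdmissible ∧
      (∀ d : GoodDatum F, c j.1 (d.mono hU) = d.eval Bad s) ∧
      (∀ v ∉ Bad, HasEigenvalue v (s.a v) (φ j.1)) ∧
      ∀ w h, IsSphTest h → ∀ x p,
        placeOp w (sphKernel h) (φ j.1) x p = coshTransform h (s.l w) * φ j.1 x p := by
    intro j
    obtain ⟨hA, hC, hB, hae, heig, hgd⟩ := hφ j.1 j.2
    refine exists_eigenSystem hU hA hB (hne _ j.2) (fun d => c j.1 (d.mono hU))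
      (fun d x p => (hgd _ (d.mono_isGood hU)).1 x p) (hcd _ j.2).1 ?_
    by_contra hall
    push Not at hall
    refine j.2 ?_
    have h := (hcd _ j.2).2
    rw [show (E.map fun d => c j.1 (d.mono hU)).sum = 0 from List.sum_eq_zero fun x hx => by
      obtain ⟨d, -, rfl⟩ := List.mem_map.mp hx
      exact hall d] at h
    exact_mod_cast h
  choose sys hadm hval hev hop using hsys
  have hμsys : ∀ j : {j // μ j ≠ 0}, (μ j.1 : ℂ) = evalList E Bad (sys j) := fun j => by
    rw [(hcd _ j.2).2, evalList]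
    simp only [hval j]
  exact ⟨⟨κ₀, b, μ, φ, fun j d => c j (d.mono hU), sys, hμ,
    fun j d => hc j _ (d.mono_isGood hU), fun j hj => (hφ j hj).1, fun j hj => (hφ j hj).2.1,
    fun j hj => (hφ j hj).2.2.1, fun j hj => (hφ j hj).2.2.2.1, fun j hj => (hφ j hj).2.2.2.2.1,
    hadm, hval, hev, hop, hμsys⟩⟩

namespace SpecData

variable {hU : ∀ v ∉ Bad, U.J v = maxSubgroup v} {W : QuotientWeight U}
  {E : List (GoodDatum F)}
  {hK : KillsConstant (E.map fun d => d.mono hU)} (D : SpecData hU W E hK)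

theorem exists_ne_zero (j : {j // D.μ j ≠ 0}) : ∃ x p, D.φ j.1 x p ≠ 0 :=
  exists_apply_ne_zero (D.b.orthonormal.ne_zero j.1) (D.ae j.1 j.2)

theorem countable : Countable {j // D.μ j ≠ 0} := by
  have h := (Kernel.summable_norm_sq_char D.b _ D.eigen).countable_support
  refine (h.mono fun j (hj : D.μ j ≠ 0) => ?_).to_subtype
  simpa using hj

theorem exists_eval_ne_zero (j : {j // D.μ j ≠ 0}) :
    ∃ d : GoodDatum F, d.eval Bad (D.sys j) ≠ 0 :=
  evalList_ne_zero_exists (E := E) (by rw [← D.value]; exact_mod_cast j.2)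

theorem mem_levelForms (j : {j // D.μ j ≠ 0}) {a : FPlace F → ℂ}
    (ha : ∀ v ∉ Bad, (D.sys j).a v = a v) (hl : ∀ w, (D.sys j).l w = 0) :
    D.φ j.1 ∈ levelForms Bad a U :=
  mem_levelForms_of_system hU (D.aut _ j.2) (D.cusp _ j.2) (D.bdd _ j.2)
    (fun v hv => ha v hv ▸ D.hecke j v hv) hl (D.radial j) (D.exists_eval_ne_zero j)

/-- The basis elements whose system has parameter zero and given eigenvalues. -/
abbrev Index (a₀ : FPlace F → ℂ) : Type :=
  {j : {j // D.μ j ≠ 0} // (∀ v ∉ Bad, (D.sys j).a v = a₀ v) ∧ ∀ w, (D.sys j).l w = 0}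

theorem index_injective (a₀ : FPlace F → ℂ) :
    Function.Injective fun j : D.Index a₀ => j.1.1 :=
  fun _ _ h => Subtype.ext (Subtype.ext h)

theorem value_index {a₀ : FPlace F → ℂ} (j : D.Index a₀) :
    (D.μ j.1.1 : ℂ) = evalList E Bad ⟨a₀, 0⟩ :=
  (D.value j.1).trans (evalList_congr E j.2.1 j.2.2)

/-- Finitely many basis elements lie over a system where `E` does not vanish. -/
theorem finite_index {a₀ : FPlace F → ℂ} (he : evalList E Bad ⟨a₀, 0⟩ ≠ 0) :
    Finite (D.Index a₀) := by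
  set e := evalList E Bad ⟨a₀, 0⟩
  have h := (Kernel.summable_norm_sq_char D.b _ D.eigen).tendsto_cofinite_zero
  have h' : {j : D.κ | ¬ ‖(D.μ j : ℂ)‖ ^ 2 < ‖e‖ ^ 2}.Finite :=
    Filter.eventually_cofinite.mp (h.eventually_lt_const (by positivity))
  have := h'.to_subtype
  exact Finite.of_injective (β := {j : D.κ | ¬ ‖(D.μ j : ℂ)‖ ^ 2 < ‖e‖ ^ 2})
    (fun j => ⟨j.1.1, by rw [Set.mem_ofPred_eq, D.value_index j]; exact lt_irrefl _⟩)
    fun x y h => D.index_injective a₀ (show x.1.1 = y.1.1 from Subtype.mk.inj h)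

/-- The eigenfunctions as forms of the level. -/
def form {a₀ : FPlace F → ℂ} (j : D.Index a₀) : levelForms Bad a₀ U :=
  ⟨D.φ j.1.1, D.mem_levelForms j.1 j.2.1 j.2.2⟩

/-- Multiples of the basis vectors over one system, as functions. -/
theorem ae_smul_index {a₀ : FPlace F → ℂ} [Fintype (D.Index a₀)] (c : D.Index a₀ → ℂ) :
    ∀ᵐ s ∂qMeas W, ∀ j : D.Index a₀, (c j • D.b j.1.1 : Lp ℂ 2 (qMeas W)) s =
      c j * onSpc U (D.φ j.1.1) s :=
  ae_all_iff.mpr fun j => by
    filter_upwards [Lp.coeFn_smul (c j) (D.b j.1.1), (D.ae _ j.1.2)] with s h1 h2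
    rw [h1, Pi.smul_apply, smul_eq_mul, h2]

/-- Every form of the level is a combination of the eigenfunctions of its system. -/
theorem exists_repr {a₀ : FPlace F → ℂ} (he : evalList E Bad ⟨a₀, 0⟩ ≠ 0) [Fintype (D.Index a₀)]
    (ψ : levelForms Bad a₀ U) : ∃ v : Lp ℂ 2 (qMeas W),
      ((v : Spc U → ℂ) =ᵐ[qMeas W] onSpc U (ψ : Gf F → Hyp F → ℂ)) ∧
      ψ = ∑ j : D.Index a₀, ⟪D.b j.1.1, v⟫_ℂ • D.form j := by
  classical
  set Em := E.map fun d => d.mono hU with hEm
  set h₀ := isHS_of_killsConstant W hK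
  set e := evalList E Bad ⟨a₀, 0⟩
  obtain ⟨ψ, hψ⟩ := ψ
  obtain ⟨hE, hA⟩ := ResidualThree.mem_levelForms.mp hψ
  obtain ⟨hm, C, hC⟩ := measurable_onSpc_bounded hA hE.bounded
  have hi := integrable_of_bounded W hm hC
  have hmem : MemLp (onSpc U ψ) 2 (qMeas W) :=
    MemLp.of_bound hm.aestronglyMeasurable C (Eventually.of_forall hC)
  set v := hmem.toLp _
  have hv : (v : Spc U → ℂ) =ᵐ[qMeas W] onSpc U ψ := hmem.coeFn_toLp
  refine ⟨v, hv, ?_⟩
  have hEψ : ∀ s, opPt W Em (onSpc U ψ) s = e * onSpc U ψ s := fun s => by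
    rw [hEm, opPt_map_mono hU W hA hE.bounded (fun d => d.eval Bad ⟨a₀, 0⟩)
      (fun d x p => d.act_levelForm hU hψ x p) E]
    rfl
  have hv0 : opK (kerL2 h₀) v = e • v := by
    refine Lp.ext ?_
    filter_upwards [coeFn_opK_eq_opPt h₀ v, Lp.coeFn_smul e v, hv] with s h1 h2 h3
    rw [h1, h2, Pi.smul_apply, smul_eq_mul, opPt_congr_ae W Em hv, hEψ, h3]
  have hva : ∀ d : GoodDatum F, opK (kerL2 (isHS_convFun W hK [d.mono hU])) v =
      (d.eval Bad ⟨a₀, 0⟩ * e) • v := fun d => by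
    refine Lp.ext ?_
    filter_upwards [coeFn_opK_eq_opPt (isHS_convFun W hK [d.mono hU]) v,
      Lp.coeFn_smul (d.eval Bad ⟨a₀, 0⟩ * e) v, hv] with s h1 h2 h3
    rw [h1, h2, Pi.smul_apply, smul_eq_mul, opPt_congr_ae W _ hv, opPt_convFun W _ _ hi,
      opPt_singleton_onSpc W _ hA hE.bounded,
      show onSpc U ((d.mono hU).act ψ) = fun s => d.eval Bad ⟨a₀, 0⟩ * onSpc U ψ s from
        funext fun s => d.act_levelForm hU hψ _ _,
      opPt_smul]
    simp only [hEψ, h3]
    ring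
  have hsupp : ∀ j, ⟪D.b j, v⟫_ℂ ≠ 0 → ∃ j' : D.Index a₀, j'.1.1 = j := fun j hj => by
    have h1 : (D.μ j : ℂ) = e := mul_right_cancel₀ hj (eigen_mul_inner_eq D.b D.eigen hv0 j)
    have hj0 : D.μ j ≠ 0 := fun h0 => he (by
      show e = 0
      rw [← h1, h0, Complex.ofReal_zero])
    have h2 : ∀ d : GoodDatum F, d.eval Bad (D.sys ⟨j, hj0⟩) = d.eval Bad ⟨a₀, 0⟩ := fun d => by
      have h3 := mul_right_cancel₀ hj
        (eigen_mul_inner_eq D.b (fun i => D.eigen_mult i d) (hva d) j)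
      rw [h1, mul_comm] at h3
      rw [← D.mult_eq]
      exact mul_right_cancel₀ he h3
    exact ⟨⟨⟨j, hj0⟩, eq_of_eval_eq h2 (D.exists_eval_ne_zero _)⟩, rfl⟩
  have hsum : v = ∑ j : D.Index a₀, ⟪D.b j.1.1, v⟫_ℂ • D.b j.1.1 := by
    have hinj := D.index_injective a₀
    refine (D.b.hasSum_repr v).unique ?_
    simp only [D.b.repr_apply_apply]
    refine (hinj.hasSum_iff (fun i hi => ?_)).mp (hasSum_fintype _)
    by_contra h0
    obtain ⟨j', rfl⟩ := hsupp i fun h => h0 (by rw [h, zero_smul])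
    exact hi ⟨j', rfl⟩
  have hae : onSpc U ψ =ᵐ[qMeas W]
      fun s => ∑ j : D.Index a₀, ⟪D.b j.1.1, v⟫_ℂ * onSpc U (D.φ j.1.1) s := by
    have h1 := Lp.coeFn_finsetSum (E := ℂ) (p := 2) (μ := qMeas W) Finset.univ
      fun j : D.Index a₀ => ⟪D.b j.1.1, v⟫_ℂ • D.b j.1.1
    rw [← hsum] at h1
    have h2 := D.ae_smul_index fun j : D.Index a₀ => ⟪D.b j.1.1, v⟫_ℂ
    filter_upwards [hv, h1, h2] with s e1 e2 e3
    rw [← e1, e2, Finset.sum_apply]
    exact Finset.sum_congr rfl fun j _ => e3 j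
  have hall := eq_of_ae_qMeas W (isInvariantFn_onSpc hA)
    (fun γ s => Finset.sum_congr rfl fun j _ => by
      rw [isInvariantFn_onSpc (D.aut _ j.1.2) γ s])
    (fun ω => show Continuous fun p : Hyp F => ψ ω.out p from hA.continuous _)
    (fun ω => continuous_finsetSum Finset.univ fun (j : D.Index a₀) _ =>
      continuous_const.mul (show Continuous fun p : Hyp F => D.φ j.1.1 ω.out p from
        (D.aut _ j.1.2).continuous _)) hae
  refine Subtype.ext ?_
  funext x p
  have h := congrFun hall ((x : Ωf U), p)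
  simp only [Submodule.coe_sum, Submodule.coe_smul, Finset.sum_apply, Pi.smul_apply, smul_eq_mul]
  rw [onSpc_mk hA] at h
  refine h.trans (Finset.sum_congr rfl fun j _ => ?_)
  rw [onSpc_mk (D.aut _ j.1.2)]
  rfl

/-- The eigenfunctions over one system are linearly independent. -/
theorem linearIndependent_form {a₀ : FPlace F → ℂ} [Fintype (D.Index a₀)] :
    LinearIndependent ℂ (fun j : D.Index a₀ => D.form j) := by
  classical
  rw [Fintype.linearIndependent_iff]
  intro g hg i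
  have h1 : ∑ j : D.Index a₀, g j • D.b j.1.1 = 0 := by
    refine (Lp.eq_zero_iff_ae_eq_zero).mpr ?_
    have h2 := D.ae_smul_index g
    filter_upwards [Lp.coeFn_finsetSum Finset.univ fun j : D.Index a₀ => g j • D.b j.1.1,
      h2] with s e1 e2
    rw [e1, Finset.sum_apply, Finset.sum_congr rfl fun j _ => e2 j]
    have h3 := congrFun (congrFun (congrArg Subtype.val hg) s.1.out) s.2
    simpa [Submodule.coe_sum, Finset.sum_apply, onSpc, form] using h3
  exact Fintype.linearIndependent_iff.mp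
    (D.b.orthonormal.linearIndependent.comp (fun j : D.Index a₀ => j.1.1)
      fun i j h => Subtype.ext (Subtype.ext h)) g h1 i

theorem span_form {a₀ : FPlace F → ℂ} (he : evalList E Bad ⟨a₀, 0⟩ ≠ 0) [Fintype (D.Index a₀)] :
    ⊤ ≤ Submodule.span ℂ (Set.range fun j : D.Index a₀ => D.form j) := fun ψ _ => by
  obtain ⟨v, -, hψ⟩ := D.exists_repr he ψ
  rw [hψ]
  exact Submodule.sum_mem _ fun j _ => Submodule.smul_mem _ _ (Submodule.subset_span ⟨j, rfl⟩)

/-- The forms of the level have the eigenfunctions of their system as a basis. -/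
def formBasis {a₀ : FPlace F → ℂ} (he : evalList E Bad ⟨a₀, 0⟩ ≠ 0) [Fintype (D.Index a₀)] :
    Module.Basis (D.Index a₀) ℂ (levelForms Bad a₀ U) :=
  Module.Basis.mk D.linearIndependent_form (D.span_form he)

theorem formBasis_apply {a₀ : FPlace F → ℂ} (he : evalList E Bad ⟨a₀, 0⟩ ≠ 0)
    [Fintype (D.Index a₀)] (j : D.Index a₀) : D.formBasis he j = D.form j :=
  Module.Basis.mk_apply _ _ j

theorem formBasis_repr {a₀ : FPlace F → ℂ} (he : evalList E Bad ⟨a₀, 0⟩ ≠ 0)
    [Fintype (D.Index a₀)] (ψ : levelForms Bad a₀ U) (j : D.Index a₀) :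
    ∃ v : Lp ℂ 2 (qMeas W),
      ((v : Spc U → ℂ) =ᵐ[qMeas W] onSpc U (ψ : Gf F → Hyp F → ℂ)) ∧
      (D.formBasis he).repr ψ j = ⟪D.b j.1.1, v⟫_ℂ := by
  classical
  obtain ⟨v, hv, hψ⟩ := D.exists_repr he ψ
  refine ⟨v, hv, ?_⟩
  rw [hψ]
  simp only [map_sum, Finsupp.finsetSum_apply, map_smul, ← D.formBasis_apply he,
    Module.Basis.repr_self]
  rw [Finset.sum_eq_single j (fun i _ hi => by simp [hi]) (fun h => absurd (Finset.mem_univ j) h)]
  simp

end SpecData

end Fermat.Agent.ResidualThree
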